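import Mathlib

/-!
# P-S19 block C (S32 bridge), leaf C4a (helper55): the adjugate trick

`TT` a commutative ring, `M` a `TT`-module, `gal, d : G →* End_TT M` with `d` central, and
`y : G → TT` with `y g = gal g + d g * gal g⁻¹` as operators on `M` (the Eichler-Shimura /
Cayley-Hamilton relation: `y g` is "the trace of `g`", `d g` "the determinant").

For a formal sum `z = ∑ t_i g_i` (`z : G →₀ TT`) put `act z = ∑ t_i • gal g_i` and
`tau z = ∑ t_i * y g_i` ("the trace of `z`").

`tau_smul_eq_zero`: if `act z = 0`, if `g : Fin 4 → G` is such that the Gram determinant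
`δ = det (y (g i * g j))` satisfies `a * δ + b = 1` with `b * tau z` killing `M`, then `tau z`
kills `M`.  (In a `2 × 2` matrix algebra this is "`z = 0 ⇒ tr z = 0`"; here it says that the
annihilator of `M` in the group algebra is stable under the adjugate involution.)

Proof: `c := tau z` equals the adjugate `∑ t_i • d g_i * gal g_i⁻¹` of `z`; `gal g * c` is central
for all `g`, hence `G` acts commutatively on `U = c M`; on `U` the matrix `y (g i * g j)` is
`a aᵀ + b bᵀ`, of rank `≤ 2`, so `δ` kills `U`.  Mathlib only.
-/

set_option autoImplicit false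
set_option linter.unusedSectionVars false
set_option linter.style.haveILetI false

namespace Fermat.Agent.S19x.C.AnnCore

open scoped BigOperators

variable {G : Type*} [Group G] {TT : Type*} [CommRing TT] {M : Type*} [AddCommGroup M]
  [Module TT M]

/-- The action of formal sums. -/
noncomputable def act (gal : G →* Module.End TT M) : (G →₀ TT) →ₗ[TT] Module.End TT M :=
  Finsupp.linearCombination TT (fun g => gal g)

/-- The adjugate action of formal sums. -/
noncomputable def actStar (gal d : G →* Module.End TT M) : (G →₀ TT) →ₗ[TT] Module.End TT M :=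
  Finsupp.linearCombination TT (fun g => d g * gal g⁻¹)

/-- The trace of formal sums. -/
noncomputable def tau (y : G → TT) : (G →₀ TT) →ₗ[TT] TT :=
  Finsupp.linearCombination TT y

variable (gal d : G →* Module.End TT M) (y : G → TT)

@[simp] theorem act_single (g : G) (t : TT) : act gal (Finsupp.single g t) = t • gal g := by
  simp [act]

@[simp] theorem actStar_single (g : G) (t : TT) :
    actStar gal d (Finsupp.single g t) = t • (d g * gal g⁻¹) := by
  simp [actStar]

@[simp] theorem tau_single (g : G) (t : TT) : tau y (Finsupp.single g t) = t * y g := by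
  simp [tau]

variable (hd : ∀ (g : G) (f : Module.End TT M), Commute (d g) f)
  (hy : ∀ g : G, algebraMap TT (Module.End TT M) (y g) = gal g + d g * gal g⁻¹)

include hy in
theorem act_add_actStar (z : G →₀ TT) :
    act gal z + actStar gal d z = algebraMap TT (Module.End TT M) (tau y z) := by
  induction z using Finsupp.induction_linear with
  | zero => simp
  | add z w hz hw => rw [map_add, map_add, map_add, map_add, ← hz, ← hw]; abel
  | single g t =>
    rw [act_single, actStar_single, tau_single, map_mul, hy, ← smul_add, Algebra.smul_def]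

include hd in
theorem d_conj (g h : G) : d h * d (g * h⁻¹) = d g := by
  rw [map_mul, ← mul_assoc, (hd h (d g)).eq, mul_assoc, ← map_mul, mul_inv_cancel, map_one,
    mul_one]

include hd hy in
/-- The polarised Cayley-Hamilton relation on group elements. -/
theorem pairing (g h : G) :
    gal g * (d h * gal h⁻¹) + gal h * (d g * gal g⁻¹) =
      d h * algebraMap TT (Module.End TT M) (y (g * h⁻¹)) := by
  rw [hy, mul_add, mul_inv_rev, inv_inv, ← mul_assoc (d h) (d (g * h⁻¹)), d_conj d hd, map_mul,
    map_mul]
  rw [← mul_assoc (gal g), ← (hd h (gal g)).eq, mul_assoc, ← mul_assoc (gal h), ← (hd g (gal h)).eq,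
    mul_assoc]

/-- The central element `∑ t_h • d h * y (g h⁻¹)`. -/
noncomputable def zed (g : G) : (G →₀ TT) →ₗ[TT] Module.End TT M :=
  Finsupp.linearCombination TT
    (fun h => d h * algebraMap TT (Module.End TT M) (y (g * h⁻¹)))

include hd in
theorem zed_commute (g : G) (z : G →₀ TT) (f : Module.End TT M) :
    Commute (zed d y g z) f := by
  induction z using Finsupp.induction_linear with
  | zero => simp
  | add z w hz hw => rw [map_add]; exact hz.add_left hw
  | single h t =>
    simp only [zed, Finsupp.linearCombination_single]
    exact ((hd h f).mul_left (Algebra.commutes _ _)).smul_left t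

include hd hy in
theorem gal_mul_actStar (g : G) (z : G →₀ TT) :
    gal g * actStar gal d z + act gal z * (d g * gal g⁻¹) = zed d y g z := by
  induction z using Finsupp.induction_linear with
  | zero => simp
  | add z w hz hw => rw [map_add, map_add, map_add, mul_add, add_mul, ← hz, ← hw]; abel
  | single h t =>
    simp only [zed, Finsupp.linearCombination_single, act_single, actStar_single]
    rw [mul_smul_comm, smul_mul_assoc, ← smul_add, pairing gal d y hd hy]

/-- A rank `≤ 2` Gram matrix over a commutative ring has determinant zero. -/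
theorem det_gram_rank_two {C : Type*} [CommRing C] (a b : Fin 4 → C) :
    Matrix.det (Matrix.of fun i j => a i * a j + b i * b j) = 0 := by
  let P : Matrix (Fin 4) (Fin 4) C :=
    Matrix.of fun i k => if k = 0 then a i else if k = 1 then b i else 0
  have hP : Matrix.det P = 0 :=
    Matrix.det_eq_zero_of_column_eq_zero (2 : Fin 4) fun i => by simp [P]
  have hmul : (Matrix.of fun i j => a i * a j + b i * b j) = P * P.transpose := by
    ext i j
    simp [P, Matrix.mul_apply, Fin.sum_univ_four]
  rw [hmul, Matrix.det_mul, hP, zero_mul]

section Core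

variable {gal d y}

include hd hy in
/-- **The adjugate trick.** -/
theorem tau_smul_eq_zero (g : Fin 4 → G) (a b : TT)
    (hab : a * Matrix.det (Matrix.of fun i j => y (g i * g j)) + b = 1)
    (z : G →₀ TT) (hz : act gal z = 0) (hb : ∀ m : M, (b * tau y z) • m = 0) (m : M) :
    tau y z • m = 0 := by
  classical
  set c : Module.End TT M := algebraMap TT (Module.End TT M) (tau y z) with hc
  have hcstar : actStar gal d z = c := by
    have := act_add_actStar gal d y hy z
    rwa [hz, zero_add] at this
  have hccomm : ∀ f : Module.End TT M, Commute c f := fun f => Algebra.commutes _ _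
  -- `gal h * c` is central
  have hX : ∀ (h : G) (f : Module.End TT M), Commute (gal h * c) f := by
    intro h f
    have := gal_mul_actStar gal d y hd hy h z
    rw [hz, zero_mul, add_zero, hcstar] at this
    rw [this]
    exact zed_commute d y hd h z f
  -- `G` acts commutatively on `c M`
  have hcomm : ∀ h k : G, gal h * gal k * c = gal k * gal h * c := by
    intro h k
    rw [mul_assoc, (hX k (gal h)).eq.symm, mul_assoc, (hccomm (gal h)).eq, ← mul_assoc]
  -- the submodule `U = c M`
  let U : Submodule TT M := LinearMap.range c
  have hU : ∀ (f : Module.End TT M), ∀ u ∈ U, f u ∈ U := by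
    rintro f _ ⟨m, rfl⟩
    exact ⟨f m, by rw [← Module.End.mul_apply, (hccomm f).eq, Module.End.mul_apply]⟩
  -- restriction of operators to `U`
  let res : Module.End TT M → Module.End TT U := fun f => f.restrict (hU f)
  have res_mul : ∀ f f', res (f * f') = res f * res f' := fun f f' => by
    ext u; rfl
  have res_add : ∀ f f', res (f + f') = res f + res f' := fun f f' => by
    ext u; rfl
  have res_alg : ∀ t : TT, res (algebraMap TT _ t) = algebraMap TT (Module.End TT U) t :=
    fun t => by ext u; rfl
  have res_comm : ∀ f f' : Module.End TT M, f * f' * c = f' * f * c →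
      res f * res f' = res f' * res f := by
    intro f f' h
    ext ⟨_, m, rfl⟩
    show f (f' (c m)) = f' (f (c m))
    have := congrArg (fun e : Module.End TT M => e m) h
    simpa [Module.End.mul_apply] using this
  -- the commuting operators on `U`
  let A : Fin 4 → Module.End TT U := fun i => res (gal (g i))
  let B : Fin 4 → Module.End TT U := fun i => res (d (g i) * gal (g i)⁻¹)
  -- everything of the form `res (D * gal h)` with `D` central commutes
  have hgen : ∀ (D D' : Module.End TT M) (h k : G), (∀ f, Commute D f) → (∀ f, Commute D' f) →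
      res (D * gal h) * res (D' * gal k) = res (D' * gal k) * res (D * gal h) := by
    intro D D' h k hD hD'
    apply res_comm
    have e1 : D * gal h * (D' * gal k) * c = D * D' * (gal h * gal k * c) := by
      have h1 : gal h * D' = D' * gal h := ((hD' (gal h)).eq).symm
      calc D * gal h * (D' * gal k) * c = D * (gal h * D') * gal k * c := by
            simp only [mul_assoc]
        _ = D * (D' * gal h) * gal k * c := by rw [h1]
        _ = D * D' * (gal h * gal k * c) := by simp only [mul_assoc]
    have e2 : D' * gal k * (D * gal h) * c = D * D' * (gal k * gal h * c) := by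
      have h1 : gal k * D = D * gal k := ((hD (gal k)).eq).symm
      have h2 : D' * D = D * D' := (hD' D).eq
      calc D' * gal k * (D * gal h) * c = D' * (gal k * D) * gal h * c := by
            simp only [mul_assoc]
        _ = D' * (D * gal k) * gal h * c := by rw [h1]
        _ = (D' * D) * (gal k * gal h * c) := by simp only [mul_assoc]
        _ = D * D' * (gal k * gal h * c) := by rw [h2]
    rw [e1, e2, hcomm]
  have hone : ∀ f : Module.End TT M, Commute (1 : Module.End TT M) f := fun f => Commute.one_left f
  have hA : ∀ i, A i = res (1 * gal (g i)) := fun i => by rw [one_mul]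
  have hS : ∀ x ∈ Set.range A ∪ Set.range B, ∀ x' ∈ Set.range A ∪ Set.range B,
      x * x' = x' * x := by
    rintro x (⟨i, rfl⟩ | ⟨i, rfl⟩) x' (⟨j, rfl⟩ | ⟨j, rfl⟩)
    · rw [hA, hA]; exact hgen 1 1 _ _ hone hone
    · rw [hA]; exact hgen 1 (d (g j)) _ _ hone (hd _)
    · rw [hA]; exact hgen (d (g i)) 1 _ _ (hd _) hone
    · exact hgen (d (g i)) (d (g j)) _ _ (hd _) (hd _)
  -- the commutative algebra generated by them
  let S : Set (Module.End TT U) := Set.range A ∪ Set.range B
  haveI : IsMulCommutative (Algebra.adjoin TT S) := Algebra.isMulCommutative_adjoin TT hS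
  letI : CommRing (Algebra.adjoin TT S) :=
    { (inferInstance : Ring (Algebra.adjoin TT S)) with
      mul_comm := fun x x' => IsMulCommutative.is_comm.comm x x' }
  let a' : Fin 4 → Algebra.adjoin TT S := fun i =>
    ⟨A i, Algebra.subset_adjoin (Or.inl ⟨i, rfl⟩)⟩
  let b' : Fin 4 → Algebra.adjoin TT S := fun i =>
    ⟨B i, Algebra.subset_adjoin (Or.inr ⟨i, rfl⟩)⟩
  have hentry : ∀ i j, algebraMap TT (Algebra.adjoin TT S) (y (g i * g j)) =
      a' i * a' j + b' i * b' j := by
    intro i j
    apply Subtype.ext
    show algebraMap TT (Module.End TT U) (y (g i * g j)) = A i * A j + B i * B j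
    rw [← res_alg, hy, res_add, map_mul, res_mul]
    congr 1
    have : d (g i * g j) * gal (g i * g j)⁻¹ =
        (d (g j) * gal (g j)⁻¹) * (d (g i) * gal (g i)⁻¹) := by
      have h1 : gal (g j)⁻¹ * d (g i) = d (g i) * gal (g j)⁻¹ := ((hd (g i) (gal (g j)⁻¹)).eq).symm
      have h2 : d (g j) * d (g i) = d (g i) * d (g j) := (hd (g j) (d (g i))).eq
      calc d (g i * g j) * gal (g i * g j)⁻¹
          = d (g i) * d (g j) * (gal (g j)⁻¹ * gal (g i)⁻¹) := by
            rw [mul_inv_rev, map_mul, map_mul]
        _ = (d (g j) * d (g i)) * (gal (g j)⁻¹ * gal (g i)⁻¹) := by rw [h2]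
        _ = d (g j) * (d (g i) * gal (g j)⁻¹) * gal (g i)⁻¹ := by simp only [mul_assoc]
        _ = d (g j) * (gal (g j)⁻¹ * d (g i)) * gal (g i)⁻¹ := by rw [h1]
        _ = (d (g j) * gal (g j)⁻¹) * (d (g i) * gal (g i)⁻¹) := by simp only [mul_assoc]
    rw [this, res_mul]
    exact hS _ (Or.inr ⟨j, rfl⟩) _ (Or.inr ⟨i, rfl⟩)
  have hdet : algebraMap TT (Algebra.adjoin TT S)
      (Matrix.det (Matrix.of fun i j => y (g i * g j))) = 0 := by
    rw [RingHom.map_det]
    have : (algebraMap TT (Algebra.adjoin TT S)).mapMatrix (Matrix.of fun i j => y (g i * g j)) =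
        Matrix.of fun i j => a' i * a' j + b' i * b' j := by
      ext i j
      simp [hentry]
    rw [this, det_gram_rank_two]
  -- conclusion
  have hδ : ∀ u : U, Matrix.det (Matrix.of fun i j => y (g i * g j)) • u = 0 := by
    intro u
    have := congrArg (fun e : Algebra.adjoin TT S => (e : Module.End TT U) u) hdet
    simpa using this
  have hcm : c m = 0 := by
    have h1 : (⟨c m, m, rfl⟩ : U) = 0 := by
      have e1 := hδ ⟨c m, m, rfl⟩
      have e2 : b • (⟨c m, m, rfl⟩ : U) = 0 := by
        apply Subtype.ext
        show b • c m = 0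
        rw [hc, Module.algebraMap_end_apply, smul_smul]
        exact hb m
      calc (⟨c m, m, rfl⟩ : U) = (a * Matrix.det (Matrix.of fun i j => y (g i * g j)) + b) •
            (⟨c m, m, rfl⟩ : U) := by rw [hab, one_smul]
        _ = 0 := by rw [add_smul, mul_smul, e1, smul_zero, e2, add_zero]
    exact congrArg Subtype.val h1
  rwa [hc, Module.algebraMap_end_apply] at hcm

end Core

end Fermat.Agent.S19x.C.AnnCore
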