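import Mathlib
import Fermat.Agent.S19x.C.AnnCore

/-!
# P-S19 block C (S32 bridge), leaf C4b (helper55): annihilator comparison, trace form

Setting of `AnnCore` (`TT`-module `M`, `gal, d : G →* End_TT M`, `y : G → TT` with
`y g = gal g + d g * gal g⁻¹`), plus a ring hom `π : TT →+* T`, an ideal `I` of `T` and a function
`trρ : G → T` ("the trace of a representation over `T`") with `trρ g ≡ π (y g)` modulo `I`.

`sum_trace_mem`: if the formal sum `z = ∑ t_k k` kills `s M` (`s : TT` a fixed element with
`b * s` killing `M`, `a * δ + b = 1` for a Gram determinant `δ`), and `M` is faithful in the sense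
`(s * t) M = 0 → π t ∈ I`, then `∑ π t_k * trρ (k * h) ∈ I` for every `h : G`.
-/

set_option autoImplicit false
set_option linter.unusedSectionVars false

namespace Fermat.Agent.S19x.C.AnnCompare

open Fermat.Agent.S19x.C.AnnCore

variable {G : Type*} [Group G] {TT : Type*} [CommRing TT] {M : Type*} [AddCommGroup M]
  [Module TT M]

/-- Right translation of formal sums. -/
noncomputable def rmul (h : G) : (G →₀ TT) →ₗ[TT] (G →₀ TT) :=
  Finsupp.lmapDomain TT TT (· * h)

/-- Left translation of formal sums. -/
noncomputable def lmul (h : G) : (G →₀ TT) →ₗ[TT] (G →₀ TT) :=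
  Finsupp.lmapDomain TT TT (h * ·)

@[simp] theorem rmul_single (h k : G) (t : TT) :
    rmul h (Finsupp.single k t) = Finsupp.single (k * h) t := by
  simp [rmul, Finsupp.lmapDomain_apply, Finsupp.mapDomain_single]

@[simp] theorem lmul_single (h k : G) (t : TT) :
    lmul h (Finsupp.single k t) = Finsupp.single (h * k) t := by
  simp [lmul, Finsupp.lmapDomain_apply, Finsupp.mapDomain_single]

theorem lmul_add (h : G) (z w : G →₀ TT) : lmul h (z + w) = lmul h z + lmul h w := map_add _ _ _

theorem lmul_mul (h k : G) (z : G →₀ TT) : lmul (h * k) z = lmul h (lmul k z) := by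
  induction z using Finsupp.induction_linear with
  | zero => simp
  | add z w hz hw => rw [map_add, map_add, map_add, hz, hw]
  | single g t => simp [mul_assoc]

theorem lmul_one (z : G →₀ TT) : lmul (1 : G) z = z := by
  induction z using Finsupp.induction_linear with
  | zero => simp
  | add z w hz hw => rw [map_add, hz, hw]
  | single g t => simp

variable (gal : G →* Module.End TT M)

theorem act_rmul (h : G) (z : G →₀ TT) : act gal (rmul h z) = act gal z * gal h := by
  induction z using Finsupp.induction_linear with
  | zero => simp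
  | add z w hz hw => rw [map_add, map_add, map_add, hz, hw, add_mul]
  | single k t => rw [rmul_single, act_single, act_single, map_mul, smul_mul_assoc]

theorem act_lmul (h : G) (z : G →₀ TT) : act gal (lmul h z) = gal h * act gal z := by
  induction z using Finsupp.induction_linear with
  | zero => simp
  | add z w hz hw => rw [map_add, map_add, map_add, hz, hw, mul_add]
  | single k t => rw [lmul_single, act_single, act_single, map_mul, mul_smul_comm]

theorem tau_rmul (y : G → TT) (h : G) (z : G →₀ TT) :
    tau y (rmul h z) = z.sum fun k t => t * y (k * h) := by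
  induction z using Finsupp.induction_linear with
  | zero => simp
  | add z w hz hw =>
    rw [map_add, map_add, hz, hw, Finsupp.sum_add_index']
    · intro k; simp
    · intro k t t'; rw [add_mul]
  | single k t => rw [rmul_single, tau_single, Finsupp.sum_single_index]; simp

variable {gal} {d : G →* Module.End TT M} {y : G → TT}
  (hd : ∀ (g : G) (f : Module.End TT M), Commute (d g) f)
  (hy : ∀ g : G, algebraMap TT (Module.End TT M) (y g) = gal g + d g * gal g⁻¹)

include hd hy in
/-- **Annihilator comparison, trace form.** -/
theorem sum_trace_mem {T : Type*} [CommRing T] (π : TT →+* T) (I : Ideal T) (trρ : G → T)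
    (happrox : ∀ g, trρ g - π (y g) ∈ I)
    (g : Fin 4 → G) (a b s : TT)
    (hab : a * Matrix.det (Matrix.of fun i j => y (g i * g j)) + b = 1)
    (hbs : ∀ m : M, (b * s) • m = 0)
    (hfaith : ∀ t : TT, (∀ m : M, (s * t) • m = 0) → π t ∈ I)
    (z : G →₀ TT) (hz : ∀ m : M, act gal z (s • m) = 0) (h : G) :
    (z.sum fun k t => π t * trρ (k * h)) ∈ I := by
  classical
  -- the formal sum `z' = s • (z * h)`
  set z' : G →₀ TT := s • rmul h z with hz'
  have hact : act gal z' = 0 := by
    rw [hz', map_smul, act_rmul]
    ext m
    rw [LinearMap.smul_apply, Module.End.mul_apply, ← map_smul, LinearMap.zero_apply]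
    exact hz _
  have hb' : ∀ m : M, (b * tau y z') • m = 0 := by
    intro m
    rw [hz', map_smul, smul_eq_mul, ← mul_assoc, mul_comm, mul_smul]
    rw [hbs, smul_zero]
  have hkill : ∀ m : M, (s * tau y (rmul h z)) • m = 0 := by
    intro m
    have := tau_smul_eq_zero hd hy g a b hab z' hact hb' m
    rwa [hz', map_smul, smul_eq_mul] at this
  have hmem : π (tau y (rmul h z)) ∈ I := hfaith _ hkill
  rw [tau_rmul, map_finsuppSum] at hmem
  have hdiff : (z.sum fun k t => π t * trρ (k * h)) - (z.sum fun k t => π (t * y (k * h))) ∈ I := by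
    rw [← Finsupp.sum_sub]
    refine Ideal.sum_mem _ fun k _ => ?_
    show π (z k) * trρ (k * h) - π (z k * y (k * h)) ∈ I
    rw [map_mul, ← mul_sub]
    exact Ideal.mul_mem_left _ _ (happrox _)
  have := Ideal.add_mem _ hdiff hmem
  rwa [sub_add_cancel] at this

end Fermat.Agent.S19x.C.AnnCompare
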