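/-
P-S19 (S19 then S32), BLOCK C (architect helper55), leaf C5 (helper68): subquotient packaging for
`Fermat.Agent.S56x.Dict.FFPoints.IsFFPoints`.

* `OfAddSubgroupStatement p` (leaf C1, `[Fact p.Prime]`) : `IsFFPoints` passes to `G_ℚ`-stable subgroups;
* `OfQuotientStatement p` (leaf C2) : `IsFFPoints` passes to quotients by `G_ℚ`-stable subgroups
  (the quotient action being any family of maps compatible with the projection);
* `of_subquotient` : if `Ψ : A →+ X` and `Φ : A →+ Z` are equivariant, `Φ` is onto and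
  `ker Ψ ≤ ker Φ`, then `IsFFPoints p X actX → IsFFPoints p Z actZ`
  (`Z ≃ range Ψ ⧸ Ψ (ker Φ)`), from C1 + C2 + `IsFFPoints.transport`.
  No additivity of the actions is needed.
-/
import Mathlib
import Fermat.Agent.S56x.Dict.FFPoints

set_option autoImplicit false

noncomputable section

namespace Fermat.Agent.S19x.C.SubQuot

open Fermat.Agent.S56x.Dict.FFPoints

local notation "Γℚ" => (AlgebraicClosure ℚ ≃ₐ[ℚ] AlgebraicClosure ℚ)
local notation "Qb" => AlgebraicClosure ℚ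

/-- Leaf C1 as a `Prop`: `IsFFPoints` passes to `G_ℚ`-stable subgroups. -/
def OfAddSubgroupStatement (p : ℕ) [Fact p.Prime] : Prop :=
  ∀ {X : Type} [AddCommGroup X] {act : Γℚ → X → X}, IsFFPoints p X act →
    ∀ (Y : AddSubgroup X) (hY : ∀ σ, ∀ y ∈ Y, act σ y ∈ Y),
      IsFFPoints p Y (fun σ y => ⟨act σ y.1, hY σ y.1 y.2⟩)

/-- Leaf C2 as a `Prop`: `IsFFPoints` passes to quotients by `G_ℚ`-stable subgroups, for any
action on the quotient compatible with the projection. -/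
def OfQuotientStatement (p : ℕ) [Fact p.Prime] : Prop :=
  ∀ {X : Type} [AddCommGroup X] {act : Γℚ → X → X}, IsFFPoints p X act →
    ∀ (Y : AddSubgroup X) (_hY : ∀ σ, ∀ y ∈ Y, act σ y ∈ Y) (actQ : Γℚ → X ⧸ Y → X ⧸ Y)
      (_hQ : ∀ σ x, actQ σ (QuotientAddGroup.mk x) = QuotientAddGroup.mk (act σ x)),
      IsFFPoints p (X ⧸ Y) actQ

universe u

variable {p : ℕ} {X Z : Type} {A : Type u} [AddCommGroup X] [AddCommGroup Z] [AddCommGroup A]
  {actX : Γℚ → X → X} {actZ : Γℚ → Z → Z} {actA : Γℚ → A → A}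

/-- the identity point is `0`. -/
theorem map_one_of_add {H : Type} [CommRing H] [HopfAlgebra (GaloisRep.ratLocalizedAt p) H]
    (e : WithConv (H →ₐ[GaloisRep.ratLocalizedAt p] Qb) ≃ X)
    (hadd : ∀ f g : WithConv (H →ₐ[GaloisRep.ratLocalizedAt p] Qb), e (f * g) = e f + e g) :
    e 1 = 0 := by
  have h := hadd 1 1
  rw [mul_one] at h
  exact left_eq_add.mp h

/-- the Galois action of a group of points of a finite flat group scheme fixes `0`. -/
theorem act_zero_of_isFFPoints (h : IsFFPoints p X actX) (σ : Γℚ) : actX σ 0 = 0 := by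
  obtain ⟨H, i1, i2, -, -, -, e, hadd, heq⟩ := h
  have e1 : e 1 = 0 := map_one_of_add e hadd
  have h2 := heq σ 1 1 (fun x => by
    have hx : (1 : WithConv (H →ₐ[GaloisRep.ratLocalizedAt p] Qb)) x =
        algebraMap ℚ Qb ((Coalgebra.counit (R := GaloisRep.ratLocalizedAt p) x :
          GaloisRep.ratLocalizedAt p) : ℚ) := by
      simp
      rfl
    rw [hx, σ.commutes])
  rw [e1] at h2
  exact h2.symm

/-- the range of an equivariant hom is stable. -/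
theorem range_stable (Ψ : A →+ X) (hΨ : ∀ σ a, Ψ (actA σ a) = actX σ (Ψ a)) :
    ∀ σ, ∀ y ∈ Ψ.range, actX σ y ∈ Ψ.range := by
  rintro σ _ ⟨a, rfl⟩
  exact ⟨actA σ a, hΨ σ a⟩

/-- the hom `range Ψ →+ Z`, `Ψ a ↦ Φ a`, for `ker Ψ ≤ ker Φ`. -/
def descend (Ψ : A →+ X) (Φ : A →+ Z) (hker : ∀ a, Ψ a = 0 → Φ a = 0) : Ψ.range →+ Z :=
  (QuotientAddGroup.lift Ψ.ker Φ (fun a ha => hker a (AddMonoidHom.mem_ker.mp ha))).comp
    (QuotientAddGroup.quotientKerEquivRange Ψ).symm.toAddMonoidHom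

theorem descend_apply (Ψ : A →+ X) (Φ : A →+ Z) (hker : ∀ a, Ψ a = 0 → Φ a = 0) (a : A) :
    descend Ψ Φ hker ⟨Ψ a, a, rfl⟩ = Φ a := by
  have h1 : (QuotientAddGroup.quotientKerEquivRange Ψ).symm ⟨Ψ a, a, rfl⟩ =
      (QuotientAddGroup.mk a : A ⧸ Ψ.ker) := by
    rw [AddEquiv.symm_apply_eq]
    rfl
  simp only [descend, AddMonoidHom.comp_apply, AddEquiv.coe_toAddMonoidHom, h1,
    QuotientAddGroup.lift_mk]

theorem descend_surjective (Ψ : A →+ X) (Φ : A →+ Z) (hker : ∀ a, Ψ a = 0 → Φ a = 0)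
    (hsurj : Function.Surjective Φ) : Function.Surjective (descend Ψ Φ hker) := by
  intro z
  obtain ⟨a, rfl⟩ := hsurj z
  exact ⟨⟨Ψ a, a, rfl⟩, descend_apply Ψ Φ hker a⟩

/-- **(C5) Subquotients.**  If `Ψ : A →+ X` and `Φ : A →+ Z` are `G_ℚ`-equivariant, `Φ` is onto and
`ker Ψ ≤ ker Φ`, then `Z` (`≃ range Ψ ⧸ Ψ (ker Φ)`) is the group of points of a finite flat group
scheme if `X` is. -/
theorem of_subquotient [Fact p.Prime] (hC1 : OfAddSubgroupStatement p)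
    (hC2 : OfQuotientStatement p)
    (hX : IsFFPoints p X actX) (Ψ : A →+ X) (Φ : A →+ Z)
    (hΨ : ∀ σ a, Ψ (actA σ a) = actX σ (Ψ a)) (hΦ : ∀ σ a, Φ (actA σ a) = actZ σ (Φ a))
    (hsurj : Function.Surjective Φ) (hker : ∀ a, Ψ a = 0 → Φ a = 0) :
    IsFFPoints p Z actZ := by
  -- `actZ σ 0 = 0`
  have hZ0 : ∀ σ, actZ σ 0 = 0 := by
    intro σ
    have h1 : Ψ (actA σ 0) = 0 := by
      rw [hΨ, map_zero, act_zero_of_isFFPoints hX]
    have h2 := hΦ σ 0
    rw [map_zero, hker _ h1] at h2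
    exact h2.symm
  -- step 1: the range of `Ψ`
  have hstab := range_stable (actA := actA) (actX := actX) Ψ hΨ
  have hY : IsFFPoints p Ψ.range (fun σ y => ⟨actX σ y.1, hstab σ y.1 y.2⟩) :=
    hC1 hX Ψ.range hstab
  -- step 2: the quotient by the kernel of `range Ψ → Z`
  set Φ' : Ψ.range →+ Z := descend Ψ Φ hker with hΦ'
  have hΦ'surj : Function.Surjective Φ' := descend_surjective Ψ Φ hker hsurj
  have hΦ'eq : ∀ σ (y : Ψ.range), Φ' ⟨actX σ y.1, hstab σ y.1 y.2⟩ = actZ σ (Φ' y) := by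
    rintro σ ⟨_, a, rfl⟩
    have h1 : (⟨actX σ (Ψ a), hstab σ (Ψ a) ⟨a, rfl⟩⟩ : Ψ.range) = ⟨Ψ (actA σ a), actA σ a, rfl⟩ :=
      Subtype.ext (hΨ σ a).symm
    rw [h1, hΦ', descend_apply, descend_apply, hΦ]
  have hKstab : ∀ σ, ∀ y ∈ Φ'.ker,
      (⟨actX σ y.1, hstab σ y.1 y.2⟩ : Ψ.range) ∈ Φ'.ker := by
    intro σ y hy
    rw [AddMonoidHom.mem_ker] at hy ⊢
    rw [hΦ'eq σ y, hy, hZ0]
  -- the first isomorphism theorem
  let θ : Ψ.range ⧸ Φ'.ker ≃+ Z := QuotientAddGroup.quotientKerEquivOfSurjective Φ' hΦ'surj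
  have hθ : ∀ y : Ψ.range, θ (QuotientAddGroup.mk y) = Φ' y := fun y => rfl
  -- the action on the quotient, transported from `Z`
  let actQ : Γℚ → Ψ.range ⧸ Φ'.ker → Ψ.range ⧸ Φ'.ker := fun σ q => θ.symm (actZ σ (θ q))
  have hQ : ∀ σ (y : Ψ.range), actQ σ (QuotientAddGroup.mk y) =
      QuotientAddGroup.mk (⟨actX σ y.1, hstab σ y.1 y.2⟩ : Ψ.range) := by
    intro σ y
    show θ.symm (actZ σ (θ (QuotientAddGroup.mk y))) = _
    rw [AddEquiv.symm_apply_eq, hθ, hθ, hΦ'eq]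
  have hquot : IsFFPoints p (Ψ.range ⧸ Φ'.ker) actQ := hC2 hY Φ'.ker hKstab actQ hQ
  -- transport to `Z`
  refine hquot.transport θ (fun σ q => ?_)
  show θ (θ.symm (actZ σ (θ q))) = actZ σ (θ q)
  rw [AddEquiv.apply_symm_apply]

end Fermat.Agent.S19x.C.SubQuot
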