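import Mathlib
import Fermat.Agent.S19x.C.AnnCompare
import Fermat.Agent.S19x.C.SubQuot

/-!
# P-S19 block C (S32 bridge), leaf C7a (helper55): from annihilators to subquotients

`W`, `Z` finite modules over a commutative ring `TT` with `TT`-linear `G_ℚ`-actions `galW`, `galZ`,
and `s : TT`.  If every formal sum `z = ∑ t_k k` (`z : Γℚ →₀ TT`) killing `s W` kills `Z`, then `Z` is
(equivariantly) a quotient of a `G_ℚ`-stable subgroup of a finite power of `W`; so `IsFFPoints`
passes from `W` to `Z` (`isFFPoints_of_annihilator_le`), given the closure statements C1, C2.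
-/

set_option autoImplicit false
set_option linter.unusedSectionVars false

noncomputable section

namespace Fermat.Agent.S19x.C.AnnSubQuot

open Fermat.Agent.S56x.Dict.FFPoints Fermat.Agent.S19x.C.AnnCore Fermat.Agent.S19x.C.AnnCompare
  Fermat.Agent.S19x.C.SubQuot

local notation "Γℚ" => (AlgebraicClosure ℚ ≃ₐ[ℚ] AlgebraicClosure ℚ)

/-- finite powers indexed by an arbitrary finite type. -/
theorem isFFPoints_pi_finite {p : ℕ} {X : Type} [AddCommGroup X] {act : Γℚ → X → X}
    (hX : IsFFPoints p X act) (ι : Type) [Finite ι] :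
    IsFFPoints p (ι → X) (fun σ z i => act σ (z i)) := by
  classical
  have : Fintype ι := Fintype.ofFinite ι
  let e : ι ≃ Fin (Fintype.card ι) := Fintype.equivFin ι
  let θ : (Fin (Fintype.card ι) → X) ≃+ (ι → X) :=
    { toFun := fun f i => f (e i)
      invFun := fun f j => f (e.symm j)
      left_inv := fun f => by funext j; simp
      right_inv := fun f => by funext i; simp
      map_add' := fun f f' => rfl }
  exact (hX.pi (Fintype.card ι)).transport θ fun σ z => rfl

variable {TT : Type} [CommRing TT] {W Z : Type} [AddCommGroup W] [AddCommGroup Z]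
  [Module TT W] [Module TT Z] [Finite W] [Finite Z]

/-- **From annihilators to subquotients.** -/
theorem isFFPoints_of_annihilator_le {p : ℕ} [Fact p.Prime]
    (hC1 : OfAddSubgroupStatement p) (hC2 : OfQuotientStatement p)
    (galW : Γℚ →* Module.End TT W) (galZ : Γℚ →* Module.End TT Z) (s : TT)
    (hann : ∀ z : Γℚ →₀ TT, (∀ w : W, act galW z (s • w) = 0) → act galZ z = 0)
    (hW : IsFFPoints p W (fun σ w => galW σ w)) :
    IsFFPoints p Z (fun σ v => galZ σ v) := by
  classical
  have : Fintype Z := Fintype.ofFinite Z
  -- the big ambient group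
  have hX : IsFFPoints p (Z × W → W) (fun σ f i => galW σ (f i)) :=
    isFFPoints_pi_finite hW (Z × W)
  -- the group of formal data
  let A : Type := Z → (Γℚ →₀ TT)
  let actA : Γℚ → A → A := fun σ x v => lmul σ (x v)
  let Ψ : A →+ (Z × W → W) :=
    { toFun := fun x i => act galW (x i.1) (s • i.2)
      map_zero' := by
        funext i
        show act galW ((0 : A) i.1) (s • i.2) = 0
        rw [Pi.zero_apply, map_zero]; rfl
      map_add' := fun x x' => by
        funext i
        show act galW ((x + x') i.1) (s • i.2) =
          act galW (x i.1) (s • i.2) + act galW (x' i.1) (s • i.2)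
        rw [Pi.add_apply, map_add]; rfl }
  let Φ : A →+ Z :=
    { toFun := fun x => ∑ v : Z, act galZ (x v) v
      map_zero' := by
        refine Finset.sum_eq_zero fun v _ => ?_
        show act galZ ((0 : A) v) v = 0
        rw [Pi.zero_apply, map_zero]; rfl
      map_add' := fun x x' => by
        rw [← Finset.sum_add_distrib]
        refine Finset.sum_congr rfl fun v _ => ?_
        show act galZ ((x + x') v) v = act galZ (x v) v + act galZ (x' v) v
        rw [Pi.add_apply, map_add]; rfl }
  refine of_subquotient (actA := actA) hC1 hC2 hX Ψ Φ ?_ ?_ ?_ ?_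
  · intro σ x
    funext i
    show act galW (lmul σ (x i.1)) (s • i.2) = galW σ (act galW (x i.1) (s • i.2))
    rw [act_lmul]; rfl
  · intro σ x
    show ∑ v : Z, act galZ (lmul σ (x v)) v = galZ σ (∑ v : Z, act galZ (x v) v)
    rw [map_sum]
    refine Finset.sum_congr rfl fun v _ => ?_
    rw [act_lmul]; rfl
  · intro v₀
    refine ⟨Pi.single v₀ (Finsupp.single 1 1), ?_⟩
    show ∑ v : Z, act galZ ((Pi.single v₀ (Finsupp.single 1 1) : A) v) v = v₀
    rw [Finset.sum_eq_single v₀]
    · rw [Pi.single_eq_same, act_single, one_smul, map_one]; rfl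
    · intro v _ hv
      rw [Pi.single_eq_of_ne hv, map_zero]; rfl
    · intro h; exact absurd (Finset.mem_univ _) h
  · intro x hx
    show ∑ v : Z, act galZ (x v) v = 0
    refine Finset.sum_eq_zero fun v _ => ?_
    have h1 : ∀ w : W, act galW (x v) (s • w) = 0 := fun w => congrFun hx (v, w)
    rw [hann (x v) h1]; rfl

end Fermat.Agent.S19x.C.AnnSubQuot
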