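/-
P-S19 (S19 then S32), BLOCK C (architect helper55), leaf C5 continued (helper68): the subquotient
packaging `of_subquotient` of `S19x/C/SubQuot.lean` with leaf C1 (closure of `IsFFPoints` under
`G_ℚ`-stable subgroups, helper87's `S19x/FFSub.lean`) discharged.  Only leaf C2 (quotients) stays
as a hypothesis-in-the-signature (`OfQuotientStatement p`).
-/
import Mathlib
import Fermat.Agent.S56x.Dict.FFPoints
import Fermat.Agent.S19x.FFSub
import Fermat.Agent.S19x.C.SubQuot

set_option autoImplicit false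

noncomputable section

namespace Fermat.Agent.S19x.C.SubQuot2

open Fermat.Agent.S56x.Dict.FFPoints Fermat.Agent.S19x.C.SubQuot

local notation "Γℚ" => (AlgebraicClosure ℚ ≃ₐ[ℚ] AlgebraicClosure ℚ)
local notation "Qb" => AlgebraicClosure ℚ

/-- Leaf C1 holds (helper87's `FFSub.isFFPoints_of_addSubgroup`). -/
theorem ofAddSubgroupStatement (p : ℕ) [Fact p.Prime] : OfAddSubgroupStatement p := by
  intro X _ act h Y hY
  exact Fermat.Agent.S19x.FFSub.isFFPoints_of_addSubgroup h Y hY

universe u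

variable {p : ℕ} {X Z : Type} {A : Type u} [AddCommGroup X] [AddCommGroup Z] [AddCommGroup A]
  {actX : Γℚ → X → X} {actZ : Γℚ → Z → Z} {actA : Γℚ → A → A}

/-- **(C5) Subquotients, C1 discharged.**  If `Ψ : A →+ X` and `Φ : A →+ Z` are `G_ℚ`-equivariant,
`Φ` is onto and `ker Ψ ≤ ker Φ`, then `Z` (`≃ range Ψ ⧸ Ψ (ker Φ)`) is the group of points of a
finite flat group scheme if `X` is — given only the quotient statement C2. -/
theorem of_subquotient_of_quotient [Fact p.Prime] (hC2 : OfQuotientStatement p)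
    (hX : IsFFPoints p X actX) (Ψ : A →+ X) (Φ : A →+ Z)
    (hΨ : ∀ σ a, Ψ (actA σ a) = actX σ (Ψ a)) (hΦ : ∀ σ a, Φ (actA σ a) = actZ σ (Φ a))
    (hsurj : Function.Surjective Φ) (hker : ∀ a, Ψ a = 0 → Φ a = 0) :
    IsFFPoints p Z actZ :=
  of_subquotient (ofAddSubgroupStatement p) hC2 hX Ψ Φ hΨ hΦ hsurj hker

end Fermat.Agent.S19x.C.SubQuot2
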