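/-
P-S19 (S19 then S32), BLOCK C (architect helper55), corollary of C4 (= "C5 + C7" packaging, helper68):
from an annihilator comparison to `IsFFPoints`.

`W`, `Z` finite abelian groups with commuting actions of `G_ℚ` and of a ring `TT` ("Hecke").  If every
finite formal sum `∑ t_g g` (`t_g ∈ TT`) which kills `sW (W)` under the `W`-action also kills `Z` under
the `Z`-action, then `Z` is `G_ℚ`-equivariantly a subquotient of the finite power `W ^ (Z × W)`:
with `A := Z → (G_ℚ →₀ TT)` (`G_ℚ` acting by left translation),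
`Ψ : A → (Z × W → W)`, `x ↦ ((v, w) ↦ (x v) · sW w)` and `Φ : A → Z`, `x ↦ ∑ v, (x v) · v`
are equivariant, `Φ` is onto and `ker Ψ ≤ ker Φ`.  Hence `IsFFPoints p W → IsFFPoints p Z`
(`SubQuot.of_subquotient`; C1 discharged in `SubQuot2`, C2 still a hypothesis-in-the-signature).
-/
import Mathlib
import Fermat.Agent.S56x.Dict.FFPoints
import Fermat.Agent.S56x.Fontaine.PointsRational
import Fermat.Agent.S19x.C.SubQuot
import Fermat.Agent.S19x.C.SubQuot2

set_option autoImplicit false

noncomputable section

namespace Fermat.Agent.S19x.C.AnnToFF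

open Fermat.Agent.S56x.Dict.FFPoints Fermat.Agent.S19x.C.SubQuot Fermat.Agent.S19x.C.SubQuot2

local notation "Γℚ" => (AlgebraicClosure ℚ ≃ₐ[ℚ] AlgebraicClosure ℚ)
local notation "Qb" => AlgebraicClosure ℚ

section Pi

variable {p : ℕ} {X : Type} [AddCommGroup X] {actX : Γℚ → X → X}

/-- finite powers indexed by an arbitrary finite type. -/
theorem pi_finite (hX : IsFFPoints p X actX) (ι : Type) [Finite ι] :
    IsFFPoints p (ι → X) (fun σ z i => actX σ (z i)) := by
  obtain ⟨m, ⟨e⟩⟩ := Finite.exists_equiv_fin ι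
  exact (hX.pi m).transport (LinearEquiv.funCongrLeft ℤ X e).toAddEquiv (fun σ z => rfl)

/-- the group of points of a finite flat group scheme is finite. -/
theorem finite_of_isFFPoints (hX : IsFFPoints p X actX) : Finite X := by
  obtain ⟨H, i1, i2, hfin, -, -, e, -, -⟩ := hX
  haveI := hfin
  haveI : Finite (H →ₐ[GaloisRep.ratLocalizedAt p] Qb) :=
    Fermat.Agent.S56x.Fontaine.PointsRational.finite_points
  haveI : Finite (WithConv (H →ₐ[GaloisRep.ratLocalizedAt p] Qb)) :=
    Finite.of_injective WithConv.ofConv WithConv.ofConv_injective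
  exact Finite.of_equiv _ e

end Pi

section Lift

variable {G : Type*} [Group G] {TT : Type*} [Ring TT] {W : Type*} [AddCommGroup W]

/-- the action of the formal sum `f = ∑ t_g g` on a vector `w`: `∑ hecke (t_g) (gal g w)`. -/
def sumAct (gal : G →* AddMonoid.End W) (hecke : TT →+* AddMonoid.End W) (w : W) :
    (G →₀ TT) →+ W :=
  Finsupp.liftAddHom (fun g =>
    { toFun := fun t => hecke t (gal g w)
      map_zero' := by
        rw [map_zero]
        rfl
      map_add' := fun t t' => by
        rw [map_add]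
        rfl })

theorem sumAct_single (gal : G →* AddMonoid.End W) (hecke : TT →+* AddMonoid.End W) (w : W)
    (g : G) (t : TT) : sumAct gal hecke w (Finsupp.single g t) = hecke t (gal g w) := by
  simp [sumAct]

theorem sumAct_apply (gal : G →* AddMonoid.End W) (hecke : TT →+* AddMonoid.End W) (w : W)
    (f : G →₀ TT) : sumAct gal hecke w f = ∑ g ∈ f.support, hecke (f g) (gal g w) := by
  simp [sumAct, Finsupp.liftAddHom_apply, Finsupp.sum]

/-- left translation by `σ` on formal sums corresponds to acting by `σ`. -/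
theorem sumAct_mapDomain (gal : G →* AddMonoid.End W) (hecke : TT →+* AddMonoid.End W)
    (comm : ∀ σ t, Commute (gal σ) (hecke t)) (w : W) (σ : G) (f : G →₀ TT) :
    sumAct gal hecke w (Finsupp.mapDomain (fun g => σ * g) f) = gal σ (sumAct gal hecke w f) := by
  have h : (sumAct gal hecke w).comp (Finsupp.mapDomain.addMonoidHom (fun g => σ * g)) =
      (gal σ : W →+ W).comp (sumAct gal hecke w) := by
    refine Finsupp.addHom_ext (fun g t => ?_)
    simp only [AddMonoidHom.comp_apply, Finsupp.mapDomain.addMonoidHom_apply,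
      Finsupp.mapDomain_single, sumAct_single, map_mul]
    have hc := (comm σ t).eq
    show hecke t ((gal σ * gal g) w) = gal σ (hecke t (gal g w))
    calc hecke t ((gal σ * gal g) w) = (hecke t * gal σ) (gal g w) := rfl
      _ = (gal σ * hecke t) (gal g w) := by rw [hc]
      _ = gal σ (hecke t (gal g w)) := rfl
  exact DFunLike.congr_fun h f

end Lift

universe u

variable {p : ℕ} {TT : Type u} [Ring TT] {W Z : Type} [AddCommGroup W] [AddCommGroup Z]

/-- **From an annihilator comparison to `IsFFPoints`.**  `W`, `Z` finite abelian groups with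
commuting actions of `G_ℚ` and `TT`; `sW : W → W` any map.  If every finite formal sum `∑ t_g g`
killing `sW (W)` kills `Z`, then `Z` is a `G_ℚ`-subquotient of `W ^ (Z × W)`; so `IsFFPoints p W`
implies `IsFFPoints p Z`. -/
theorem isFFPoints_of_annihilator [Fact p.Prime] (hC2 : OfQuotientStatement p)
    [Finite Z]
    (galW : Γℚ →* AddMonoid.End W) (heckeW : TT →+* AddMonoid.End W)
    (commW : ∀ σ t, Commute (galW σ) (heckeW t))
    (galZ : Γℚ →* AddMonoid.End Z) (heckeZ : TT →+* AddMonoid.End Z)
    (commZ : ∀ σ t, Commute (galZ σ) (heckeZ t))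
    (sW : W → W)
    (hann : ∀ (S : Finset Γℚ) (t : Γℚ → TT),
      (∀ w, ∑ g ∈ S, heckeW (t g) (galW g (sW w)) = 0) →
        ∀ v, ∑ g ∈ S, heckeZ (t g) (galZ g v) = 0)
    {actW : Γℚ → W → W} (hactW : ∀ σ w, actW σ w = galW σ w)
    {actZ : Γℚ → Z → Z} (hactZ : ∀ σ v, actZ σ v = galZ σ v)
    (hW : IsFFPoints p W actW) : IsFFPoints p Z actZ := by
  classical
  haveI : Finite W := finite_of_isFFPoints hW
  haveI : Fintype Z := Fintype.ofFinite Z
  -- the finite power `W ^ (Z × W)`
  have hX : IsFFPoints p (Z × W → W) (fun σ f i => actW σ (f i)) := pi_finite hW (Z × W)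
  -- the group of formal sums
  let A := Z → (Γℚ →₀ TT)
  let actA : Γℚ → A → A := fun σ x v => Finsupp.mapDomain (fun g => σ * g) (x v)
  let Ψ : A →+ (Z × W → W) :=
    { toFun := fun x i => sumAct galW heckeW (sW i.2) (x i.1)
      map_zero' := by
        funext i
        exact map_zero (sumAct galW heckeW (sW i.2))
      map_add' := fun x y => by
        funext i
        exact map_add (sumAct galW heckeW (sW i.2)) (x i.1) (y i.1) }
  let Φ : A →+ Z := ∑ v : Z, (sumAct galZ heckeZ v).comp (Pi.evalAddMonoidHom _ v)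
  have hΦapply : ∀ x : A, Φ x = ∑ v : Z, sumAct galZ heckeZ v (x v) := by
    intro x
    show (∑ v : Z, (sumAct galZ heckeZ v).comp (Pi.evalAddMonoidHom _ v)) x = _
    rw [AddMonoidHom.finsetSum_apply]
    rfl
  refine of_subquotient_of_quotient (actA := actA) hC2 hX Ψ Φ (fun σ x => ?_) (fun σ x => ?_)
    (fun v0 => ?_) (fun x hx => ?_)
  · -- equivariance of `Ψ`
    funext i
    show sumAct galW heckeW (sW i.2) (Finsupp.mapDomain (fun g => σ * g) (x i.1)) =
      actW σ (sumAct galW heckeW (sW i.2) (x i.1))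
    rw [sumAct_mapDomain galW heckeW commW, hactW]
  · -- equivariance of `Φ`
    rw [hΦapply, hΦapply, hactZ, map_sum]
    refine Finset.sum_congr rfl (fun v _ => ?_)
    show sumAct galZ heckeZ v (Finsupp.mapDomain (fun g => σ * g) (x v)) = _
    rw [sumAct_mapDomain galZ heckeZ commZ]
  · -- surjectivity of `Φ`
    refine ⟨Pi.single v0 (Finsupp.single 1 1), ?_⟩
    rw [hΦapply, Finset.sum_eq_single v0]
    · rw [Pi.single_eq_same, sumAct_single]
      simp
    · intro v _ hv
      rw [Pi.single_eq_of_ne hv, map_zero]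
    · intro h
      exact absurd (Finset.mem_univ v0) h
  · -- `ker Ψ ≤ ker Φ`
    rw [hΦapply]
    refine Finset.sum_eq_zero (fun v _ => ?_)
    rw [sumAct_apply]
    refine hann (x v).support (fun g => x v g) (fun w => ?_) v
    have h1 := congrFun hx (v, w)
    have h2 : Ψ x (v, w) = sumAct galW heckeW (sW w) (x v) := rfl
    rw [h2, sumAct_apply] at h1
    exact h1

end Fermat.Agent.S19x.C.AnnToFF
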