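/-
P-S19 (S19 then S32), BLOCK C (architect helper55), leaf C5 final form (helper68): the UNCONDITIONAL
subquotient packaging for `IsFFPoints`, with C1 (`S19x/FFSub.lean`, helper87) and C2
(`S19x/FF/OfQuotient.lean`, helper16) discharged.

* `ofQuotientStatement p : OfQuotientStatement p`;
* `of_subquotient` : `Ψ : A →+ X`, `Φ : A →+ Z` equivariant, `Φ` onto, `ker Ψ ≤ ker Φ`
  ⟹ `IsFFPoints p X actX → IsFFPoints p Z actZ`;
* `isFFPoints_of_annihilator` : annihilator comparison ⟹ `IsFFPoints` (see `AnnToFF.lean`),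
  no hypothesis-in-the-signature left.
-/
import Mathlib
import Fermat.Agent.S56x.Dict.FFPoints
import Fermat.Agent.S19x.FF.OfQuotient
import Fermat.Agent.S19x.C.SubQuot
import Fermat.Agent.S19x.C.SubQuot2
import Fermat.Agent.S19x.C.AnnToFF

set_option autoImplicit false

noncomputable section

namespace Fermat.Agent.S19x.C.SubQuot3

open Fermat.Agent.S56x.Dict.FFPoints Fermat.Agent.S19x.C.SubQuot Fermat.Agent.S19x.C.SubQuot2

local notation "Γℚ" => (AlgebraicClosure ℚ ≃ₐ[ℚ] AlgebraicClosure ℚ)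
local notation "Qb" => AlgebraicClosure ℚ

/-- Leaf C2 holds (helper16's `FF.OfQuotient.of_quotient`). -/
theorem ofQuotientStatement (p : ℕ) [Fact p.Prime] : OfQuotientStatement p := by
  intro X _ act h Y hY actQ hQ
  exact Fermat.Agent.S19x.FF.OfQuotient.of_quotient h Y hY actQ hQ

universe u

section Sub

variable {p : ℕ} {X Z : Type} {A : Type u} [AddCommGroup X] [AddCommGroup Z] [AddCommGroup A]
  {actX : Γℚ → X → X} {actZ : Γℚ → Z → Z} {actA : Γℚ → A → A}

/-- **(C5) Subquotients, unconditional.**  If `Ψ : A →+ X` and `Φ : A →+ Z` are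
`G_ℚ`-equivariant, `Φ` is onto and `ker Ψ ≤ ker Φ`, then `Z` (`≃ range Ψ ⧸ Ψ (ker Φ)`) is the group
of points of a finite flat group scheme if `X` is. -/
theorem of_subquotient [Fact p.Prime]
    (hX : IsFFPoints p X actX) (Ψ : A →+ X) (Φ : A →+ Z)
    (hΨ : ∀ σ a, Ψ (actA σ a) = actX σ (Ψ a)) (hΦ : ∀ σ a, Φ (actA σ a) = actZ σ (Φ a))
    (hsurj : Function.Surjective Φ) (hker : ∀ a, Ψ a = 0 → Φ a = 0) :
    IsFFPoints p Z actZ :=
  of_subquotient_of_quotient (ofQuotientStatement p) hX Ψ Φ hΨ hΦ hsurj hker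

end Sub

variable {p : ℕ} {TT : Type u} [Ring TT] {W Z : Type} [AddCommGroup W] [AddCommGroup Z]

/-- **Annihilator comparison ⟹ `IsFFPoints`, unconditional.**  `W`, `Z` abelian groups (`Z` finite)
with commuting actions of `G_ℚ` and `TT`; `sW : W → W` any map.  If every finite formal sum
`∑ t_g g` killing `sW (W)` kills `Z`, then `IsFFPoints p W` implies `IsFFPoints p Z`. -/
theorem isFFPoints_of_annihilator [Fact p.Prime] [Finite Z]
    (galW : Γℚ →* AddMonoid.End W) (heckeW : TT →+* AddMonoid.End W)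
    (commW : ∀ σ t, Commute (galW σ) (heckeW t))
    (galZ : Γℚ →* AddMonoid.End Z) (heckeZ : TT →+* AddMonoid.End Z)
    (commZ : ∀ σ t, Commute (galZ σ) (heckeZ t))
    (sW : W → W)
    (hann : ∀ (S : Finset Γℚ) (t : Γℚ → TT),
      (∀ w, ∑ g ∈ S, heckeW (t g) (galW g (sW w)) = 0) →
        ∀ v, ∑ g ∈ S, heckeZ (t g) (galZ g v) = 0)
    {actW : Γℚ → W → W} (hactW : ∀ σ w, actW σ w = galW σ w)
    {actZ : Γℚ → Z → Z} (hactZ : ∀ σ v, actZ σ v = galZ σ v)
    (hW : IsFFPoints p W actW) : IsFFPoints p Z actZ :=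
  Fermat.Agent.S19x.C.AnnToFF.isFFPoints_of_annihilator (ofQuotientStatement p) galW heckeW commW
    galZ heckeZ commZ sW hann hactW hactZ hW

end Fermat.Agent.S19x.C.SubQuot3
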