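/-
P-S19 stage 2 (S32 bridge), BLOCK C, leaf C3 (board key `S19_C_PLAN`): the GRAM UNIT lemma.

For a rank two representation `ρ` over a local ring `T` with absolutely irreducible residual
representation there are four group elements `g 0, …, g 3` such that the Gram determinant
`det (trace ρ(g i * g j))` is a unit of `T`; the `ρ (g i)` then form a `T`-basis of `End_T V`, and
an endomorphism `f` with `trace (f ∘ ρ (g i)) ∈ I` for all `i` maps `V` into `I V`.

The core is stated for arbitrary matrix valued functions `r : G → Matrix n n T` whose residues span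
the full matrix algebra over the residue field (section `Flat`); the Galois form (section `Rep`)
uses Burnside in the form `Fermat.Agent.S53.span_range_resMat_eq_top`.
-/
import Mathlib
import Fermat.Prelude.Def_GaloisRep_Adic
import Fermat.Agent.S53.Burnside

set_option autoImplicit false

namespace Fermat.Agent.S19x.C.Gram

open scoped TensorProduct Matrix

local notation "Γℚ" => (AlgebraicClosure ℚ ≃ₐ[ℚ] AlgebraicClosure ℚ)

section Flat

variable {T : Type*} [CommRing T] {n : Type*} [Fintype n] [DecidableEq n] {G : Type*}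

/-- The square matrix whose rows are the flattened matrices `r (g p)`, `p : n × n`. -/
def flat (r : G → Matrix n n T) (g : n × n → G) : Matrix (n × n) (n × n) T :=
  Matrix.of fun p q => r (g p) q.1 q.2

omit [CommRing T] [Fintype n] [DecidableEq n] in
lemma flat_apply (r : G → Matrix n n T) (g : n × n → G) (p q : n × n) :
    flat r g p q = r (g p) q.1 q.2 := rfl

omit [DecidableEq n] in
/-- Traces against the `r (g p)` are the entries of a matrix-vector product with `flat r g`. -/
lemma trace_mul_eq_mulVec (r : G → Matrix n n T) (g : n × n → G) (A : Matrix n n T) (p : n × n) :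
    (A * r (g p)).trace = (flat r g).mulVec (fun q => A q.2 q.1) p := by
  rw [Matrix.trace_mul_comm, Matrix.trace]
  simp only [Matrix.diag_apply, Matrix.mul_apply, Matrix.mulVec, dotProduct, flat_apply]
  rw [Fintype.sum_prod_type]

omit [DecidableEq n] in
/-- The Gram matrix of the trace form on the `r (g p)` factors through `flat r g`. -/
lemma gram_eq (r : G → Matrix n n T) (g : n × n → G) :
    (Matrix.of fun p q : n × n => (r (g p) * r (g q)).trace)
      = flat r g * ((flat r g).submatrix id (Equiv.prodComm n n))ᵀ := by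
  ext p q
  rw [Matrix.of_apply, Matrix.mul_apply, Matrix.trace]
  simp only [Matrix.diag_apply, Matrix.mul_apply, Matrix.transpose_apply, Matrix.submatrix_apply,
    flat_apply, id_eq, Equiv.prodComm_apply, Prod.fst_swap, Prod.snd_swap]
  rw [Fintype.sum_prod_type]

/-- The Gram determinant is a unit as soon as `det (flat r g)` is. -/
lemma isUnit_det_gram (r : G → Matrix n n T) (g : n × n → G) (h : IsUnit (flat r g).det) :
    IsUnit (Matrix.of fun p q : n × n => (r (g p) * r (g q)).trace).det := by
  rw [gram_eq, Matrix.det_mul, Matrix.det_transpose, Matrix.det_permute']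
  refine h.mul (IsUnit.mul ?_ h)
  exact (Equiv.Perm.sign (Equiv.prodComm n n)).isUnit.map (Int.castRingHom T)

/-- If `det (flat r g)` is a unit, a matrix all of whose traces against the `r (g p)` lie in an
ideal `I` has all its entries in `I`. -/
lemma entry_mem_of_trace_mem (r : G → Matrix n n T) (g : n × n → G) (h : IsUnit (flat r g).det)
    (I : Ideal T) (A : Matrix n n T) (hA : ∀ p, (A * r (g p)).trace ∈ I) (i j : n) :
    A i j ∈ I := by
  set X := flat r g with hX
  set v : n × n → T := fun q => A q.2 q.1 with hv
  have hw : ∀ p, X.mulVec v p ∈ I := fun p => by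
    rw [← trace_mul_eq_mulVec]; exact hA p
  have hinv : X⁻¹ * X = 1 := Matrix.nonsing_inv_mul X h
  have hvv : v = X⁻¹.mulVec (X.mulVec v) := by
    rw [Matrix.mulVec_mulVec, hinv, Matrix.one_mulVec]
  have : v (j, i) ∈ I := by
    rw [hvv]
    simp only [Matrix.mulVec, dotProduct]
    exact Ideal.sum_mem _ fun p _ => Ideal.mul_mem_left _ _ (hw p)
  simpa [hv] using this

/-- If `det (flat r g)` is a unit, every matrix is a `T`-linear combination of the `r (g p)`. -/
lemma exists_eq_sum_smul (r : G → Matrix n n T) (g : n × n → G) (h : IsUnit (flat r g).det)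
    (A : Matrix n n T) : ∃ c : n × n → T, A = ∑ p, c p • r (g p) := by
  set X := flat r g with hX
  set a : n × n → T := fun q => A q.1 q.2 with ha
  have hinv : X * X⁻¹ = 1 := Matrix.mul_nonsing_inv X h
  refine ⟨Matrix.vecMul a X⁻¹, ?_⟩
  have key : Matrix.vecMul (Matrix.vecMul a X⁻¹) X = a := by
    rw [Matrix.vecMul_vecMul, Matrix.nonsing_inv_mul X h, Matrix.vecMul_one]
  ext i j
  have := congrFun key (i, j)
  simp only [Matrix.vecMul, dotProduct] at this
  have h2 : (∑ p, Matrix.vecMul a X⁻¹ p • r (g p)) i j
      = ∑ p, Matrix.vecMul a X⁻¹ p * r (g p) i j := by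
    rw [Matrix.sum_apply]
    rfl
  rw [h2]
  exact this.symm

variable [IsLocalRing T]

/-- If the residues of the `r g` span the full matrix algebra over the residue field, there are
`|n|²` elements whose flattened matrices have unit determinant. -/
theorem exists_isUnit_det_flat (r : G → Matrix n n T)
    (hspan : Submodule.span (IsLocalRing.ResidueField T)
      (Set.range fun g => (r g).map (IsLocalRing.residue T)) = ⊤) :
    ∃ g : n × n → G, IsUnit (flat r g).det := by
  classical
  set k := IsLocalRing.ResidueField T with hk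
  set rbar : G → Matrix n n k := fun g => (r g).map (IsLocalRing.residue T) with hrbar
  obtain ⟨b, hbs, hbspan, hli⟩ := exists_linearIndependent k (Set.range rbar)
  have htop : ⊤ ≤ Submodule.span k (Set.range (fun x : b => (x : Matrix n n k))) := by
    rw [Subtype.range_coe, hbspan, hspan]
  let B : Module.Basis b k (Matrix n n k) := Module.Basis.mk hli htop
  let e : b ≃ n × n := B.indexEquiv (Matrix.stdBasis k n n)
  have hmem : ∀ p : n × n, ∃ g : G, rbar g = ((e.symm p : b) : Matrix n n k) := fun p =>
    hbs (e.symm p).2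
  choose g hg using hmem
  refine ⟨g, ?_⟩
  -- reduce to the residue field
  have hres : IsLocalRing.residue T (flat r g).det = ((flat r g).map (IsLocalRing.residue T)).det :=
    RingHom.map_det _ _
  have hrows : LinearIndependent k ((flat r g).map (IsLocalRing.residue T)).row := by
    have h1 : LinearIndependent k (fun p : n × n => ((e.symm p : b) : Matrix n n k)) :=
      hli.comp _ e.symm.injective
    have h2 := h1.map' ((LinearEquiv.curry k k n n).symm :
      (n → n → k) ≃ₗ[k] (n × n → k)).toLinearMap (LinearEquiv.ker _)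
    have hfun : ((flat r g).map (IsLocalRing.residue T)).row
        = (⇑((LinearEquiv.curry k k n n).symm : (n → n → k) ≃ₗ[k] (n × n → k)).toLinearMap ∘
            fun p : n × n => ((e.symm p : b) : Matrix n n k)) := by
      funext p q
      exact congrFun (congrFun (hg p) q.1) q.2
    rw [hfun]
    exact h2
  have hunit : IsUnit ((flat r g).map (IsLocalRing.residue T)) :=
    Matrix.linearIndependent_rows_iff_isUnit.mp hrows
  have hdet : IsUnit ((flat r g).map (IsLocalRing.residue T)).det :=
    (Matrix.isUnit_iff_isUnit_det _).mp hunit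
  rw [← hres] at hdet
  by_contra hnu
  have : (flat r g).det ∈ IsLocalRing.maximalIdeal T := by
    rwa [IsLocalRing.mem_maximalIdeal, mem_nonunits_iff]
  rw [← IsLocalRing.residue_eq_zero_iff] at this
  rw [this] at hdet
  exact not_isUnit_zero hdet

end Flat

section Rep

variable {T : Type} [CommRing T] [IsLocalRing T]

/-- The residues of the matrices of `ρ` span the full matrix algebra (Burnside). -/
lemma span_range_map_eq_top (ρ : GaloisRepAdic T) (habs : ρ.residual.IsAbsolutelyIrreducible)
    (b : Module.Basis (Fin 2) T ρ.V) :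
    Submodule.span (IsLocalRing.ResidueField T)
      (Set.range fun g : Γℚ => (LinearMap.toMatrix b b (ρ.ρ g)).map (IsLocalRing.residue T))
      = ⊤ := by
  let k := IsLocalRing.ResidueField T
  let bk : Module.Basis (Fin 2) k ρ.residual.V := Algebra.TensorProduct.basis k b
  have hres : ∀ g, Fermat.Agent.S53.resMat ρ.residual bk g
      = (LinearMap.toMatrix b b (ρ.ρ g)).map (IsLocalRing.residue T) := by
    intro g
    rw [Fermat.Agent.S53.resMat_apply]
    exact LinearMap.toMatrix_baseChange k (ρ.ρ g) b b
  have h := Fermat.Agent.S53.span_range_resMat_eq_top ρ.residual habs bk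
  rw [← h]
  congr 1
  ext M
  constructor
  · rintro ⟨g, rfl⟩; exact ⟨g, hres g⟩
  · rintro ⟨g, rfl⟩; exact ⟨g, (hres g).symm⟩

/-- **Gram unit lemma**, with all its consequences for one and the same quadruple `g`:
the Gram determinant of the trace form is a unit, the `ρ (g i)` span `End_T V`, and an
endomorphism whose traces against the `ρ (g i)` lie in an ideal `I` maps `V` into `I V`. -/
theorem exists_gram (ρ : GaloisRepAdic T) (habs : ρ.residual.IsAbsolutelyIrreducible) :
    ∃ g : Fin 4 → Γℚ,
      IsUnit (Matrix.det (Matrix.of fun i j : Fin 4 =>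
        LinearMap.trace T ρ.V (ρ.ρ (g i * g j)))) ∧
      (∀ f : Module.End T ρ.V, ∃ c : Fin 4 → T, f = ∑ i, c i • ρ.ρ (g i)) ∧
      (∀ (I : Ideal T) (f : Module.End T ρ.V),
        (∀ i, LinearMap.trace T ρ.V (f * ρ.ρ (g i)) ∈ I) →
          ∀ v, f v ∈ I • (⊤ : Submodule T ρ.V)) := by
  classical
  let b : Module.Basis (Fin 2) T ρ.V := Module.finBasisOfFinrankEq T ρ.V ρ.finrank_eq
  set R : Γℚ → Matrix (Fin 2) (Fin 2) T := fun g => LinearMap.toMatrix b b (ρ.ρ g) with hR
  obtain ⟨g', hg'⟩ := exists_isUnit_det_flat R (span_range_map_eq_top ρ habs b)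
  let e : Fin 4 ≃ Fin 2 × Fin 2 := (finProdFinEquiv (m := 2) (n := 2)).symm
  have htrace : ∀ f : Module.End T ρ.V, LinearMap.trace T ρ.V f
      = (LinearMap.toMatrix b b f).trace := fun f => LinearMap.trace_eq_matrix_trace T b f
  refine ⟨g' ∘ e, ?_, ?_, ?_⟩
  · have h1 := isUnit_det_gram R g' hg'
    have h2 : (Matrix.of fun i j : Fin 4 =>
        LinearMap.trace T ρ.V (ρ.ρ ((g' ∘ e) i * (g' ∘ e) j)))
        = (Matrix.of fun p q : Fin 2 × Fin 2 => (R (g' p) * R (g' q)).trace).submatrix e e := by
      ext i j
      rw [Matrix.of_apply, Matrix.submatrix_apply, Matrix.of_apply, map_mul, htrace,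
        LinearMap.toMatrix_mul]
      rfl
    rw [h2, Matrix.det_submatrix_equiv_self]
    exact h1
  · intro f
    obtain ⟨c, hc⟩ := exists_eq_sum_smul R g' hg' (LinearMap.toMatrix b b f)
    refine ⟨c ∘ e, ?_⟩
    apply (LinearMap.toMatrix b b).injective
    rw [hc, map_sum]
    rw [← Equiv.sum_comp e]
    refine Finset.sum_congr rfl fun i _ => ?_
    rw [map_smul]
    rfl
  · intro I f hf v
    have hent : ∀ i j, LinearMap.toMatrix b b f i j ∈ I := by
      refine entry_mem_of_trace_mem R g' hg' I _ fun p => ?_
      have := hf (e.symm p)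
      rw [htrace, LinearMap.toMatrix_mul] at this
      simpa [hR] using this
    -- expand `f v` in the basis
    have hfv : f v = ∑ i, (∑ j, LinearMap.toMatrix b b f i j * b.repr v j) • b i := by
      conv_lhs => rw [← b.sum_repr (f v)]
      refine Finset.sum_congr rfl fun i _ => ?_
      congr 1
      have := LinearMap.toMatrix_mulVec_repr b b f v
      have h2 := congrFun this i
      rw [← h2]
      simp [Matrix.mulVec, dotProduct]
    rw [hfv]
    refine Submodule.sum_mem _ fun i _ => ?_
    refine Submodule.smul_mem_smul ?_ Submodule.mem_top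
    exact Ideal.sum_mem _ fun j _ => Ideal.mul_mem_right _ _ (hent i j)

/-- (C3a) the Gram determinant of four suitable group elements is a unit. -/
theorem exists_isUnit_det_trace (ρ : GaloisRepAdic T)
    (habs : ρ.residual.IsAbsolutelyIrreducible) :
    ∃ g : Fin 4 → Γℚ, IsUnit (Matrix.det (Matrix.of fun i j : Fin 4 =>
      LinearMap.trace T ρ.V (ρ.ρ (g i * g j)))) := by
  obtain ⟨g, hg, -, -⟩ := exists_gram ρ habs
  exact ⟨g, hg⟩

/-- (C3b) an endomorphism all of whose traces against `ρ` lie in `I` maps `V` into `I V`. -/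
theorem apply_mem_smul_top_of_trace_mem (ρ : GaloisRepAdic T)
    (habs : ρ.residual.IsAbsolutelyIrreducible) (I : Ideal T) (f : Module.End T ρ.V)
    (h : ∀ g : Γℚ, LinearMap.trace T ρ.V (f * ρ.ρ g) ∈ I) (v : ρ.V) :
    f v ∈ I • (⊤ : Submodule T ρ.V) := by
  obtain ⟨g, -, -, hg⟩ := exists_gram ρ habs
  exact hg I f (fun i => h (g i)) v

/-- The `ρ g` span `End_T V`. -/
theorem span_range_eq_top (ρ : GaloisRepAdic T) (habs : ρ.residual.IsAbsolutelyIrreducible) :
    Submodule.span T (Set.range fun g : Γℚ => ρ.ρ g) = ⊤ := by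
  obtain ⟨g, -, hg, -⟩ := exists_gram ρ habs
  rw [eq_top_iff]
  intro f _
  obtain ⟨c, rfl⟩ := hg f
  exact Submodule.sum_mem _ fun i _ =>
    Submodule.smul_mem _ _ (Submodule.subset_span ⟨g i, rfl⟩)

end Rep

end Fermat.Agent.S19x.C.Gram
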