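/-
P-S19 stage 2 (S32 bridge), BLOCK C, leaf C6c (board key `S19_C_PLAN`; signatures of helper55's
message): the `V`-SIDE of the annihilator comparison.

For `ρ : GaloisRepAdic T` and a ring homomorphism `π : TT →+* T` (`TT` any commutative ring):

* `rhoSum ρ π z = ∑ π t_k • ρ k` for a formal sum `z = ∑ t_k k`, with its translation lemmas;
* `trace_rhoSum_mul` : `trace (rhoSum z * ρ h) = ∑ π t_k * trace ρ (k * h)`;
* `rhoSum_apply_mem` : if all these traces lie in `I` then `rhoSum z` maps `V` into `I V`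
  (Gram unit lemma, `Gram.apply_mem_smul_top_of_trace_mem`);
* `exists_gram_hecke`, `exists_gram_of_approx` : a Gram quadruple `g` whose Hecke Gram determinant
  `π (det (y (g i * g j)))` is a unit, as soon as `trace ρ g ≡ π (y g)` modulo a proper ideal.
-/
import Mathlib
import Fermat.Agent.S19x.C.Gram
import Fermat.Agent.S19x.C.AnnCompare

set_option autoImplicit false

namespace Fermat.Agent.S19x.C.VSide

open Fermat.Agent.S19x.C

local notation "Γℚ" => (AlgebraicClosure ℚ ≃ₐ[ℚ] AlgebraicClosure ℚ)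

variable {T : Type} [CommRing T] [IsLocalRing T] {TT : Type*} [CommRing TT]

/-- The action of a formal sum `z = ∑ t_k k` on `V`: `∑ π t_k • ρ k`. -/
noncomputable def rhoSum (ρ : GaloisRepAdic T) (π : TT →+* T) (z : Γℚ →₀ TT) :
    Module.End T ρ.V :=
  z.sum fun k t => π t • ρ.ρ k

variable (ρ : GaloisRepAdic T) (π : TT →+* T)

@[simp] theorem rhoSum_zero : rhoSum ρ π 0 = 0 := by
  simp [rhoSum]

theorem rhoSum_add (z w : Γℚ →₀ TT) : rhoSum ρ π (z + w) = rhoSum ρ π z + rhoSum ρ π w := by
  unfold rhoSum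
  refine Finsupp.sum_add_index' (fun k => ?_) fun k t t' => ?_
  · rw [map_zero, zero_smul]
  · rw [map_add, add_smul]

@[simp] theorem rhoSum_single (k : Γℚ) (t : TT) :
    rhoSum ρ π (Finsupp.single k t) = π t • ρ.ρ k := by
  unfold rhoSum
  rw [Finsupp.sum_single_index]
  rw [map_zero, zero_smul]

theorem rhoSum_smul (s : TT) (z : Γℚ →₀ TT) : rhoSum ρ π (s • z) = π s • rhoSum ρ π z := by
  induction z using Finsupp.induction_linear with
  | zero => simp
  | add z w hz hw => rw [smul_add, rhoSum_add, rhoSum_add, hz, hw, smul_add]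
  | single k t => rw [Finsupp.smul_single, rhoSum_single, rhoSum_single, smul_eq_mul, map_mul,
      mul_smul]

theorem rhoSum_lmul (σ : Γℚ) (z : Γℚ →₀ TT) :
    rhoSum ρ π (AnnCompare.lmul σ z) = ρ.ρ σ * rhoSum ρ π z := by
  induction z using Finsupp.induction_linear with
  | zero => simp
  | add z w hz hw => rw [map_add, rhoSum_add, rhoSum_add, hz, hw, mul_add]
  | single k t =>
    rw [AnnCompare.lmul_single, rhoSum_single, rhoSum_single, map_mul, mul_smul_comm]

theorem rhoSum_rmul (σ : Γℚ) (z : Γℚ →₀ TT) :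
    rhoSum ρ π (AnnCompare.rmul σ z) = rhoSum ρ π z * ρ.ρ σ := by
  induction z using Finsupp.induction_linear with
  | zero => simp
  | add z w hz hw => rw [map_add, rhoSum_add, rhoSum_add, hz, hw, add_mul]
  | single k t =>
    rw [AnnCompare.rmul_single, rhoSum_single, rhoSum_single, map_mul, smul_mul_assoc]

/-- Evaluation of `rhoSum` on a vector. -/
theorem rhoSum_apply (z : Γℚ →₀ TT) (v : ρ.V) :
    rhoSum ρ π z v = z.sum fun k t => π t • ρ.ρ k v := by
  induction z using Finsupp.induction_linear with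
  | zero => simp
  | add z w hz hw =>
    rw [rhoSum_add, LinearMap.add_apply, hz, hw, Finsupp.sum_add_index']
    · intro k; rw [map_zero, zero_smul]
    · intro k t t'; rw [map_add, add_smul]
  | single k t =>
    rw [rhoSum_single, LinearMap.smul_apply, Finsupp.sum_single_index]
    rw [map_zero, zero_smul]

/-- The traces of `rhoSum z * ρ h`. -/
theorem trace_rhoSum_mul (z : Γℚ →₀ TT) (h : Γℚ) :
    LinearMap.trace T ρ.V (rhoSum ρ π z * ρ.ρ h)
      = z.sum fun k t => π t * LinearMap.trace T ρ.V (ρ.ρ (k * h)) := by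
  induction z using Finsupp.induction_linear with
  | zero => simp
  | add z w hz hw =>
    rw [rhoSum_add, add_mul, map_add, hz, hw, Finsupp.sum_add_index']
    · intro k; rw [map_zero, zero_mul]
    · intro k t t'; rw [map_add, add_mul]
  | single k t =>
    rw [rhoSum_single, smul_mul_assoc, map_smul, smul_eq_mul, ← map_mul,
      Finsupp.sum_single_index]
    rw [map_zero, zero_mul]

/-- The trace of `rhoSum z`. -/
theorem trace_rhoSum (z : Γℚ →₀ TT) :
    LinearMap.trace T ρ.V (rhoSum ρ π z)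
      = z.sum fun k t => π t * LinearMap.trace T ρ.V (ρ.ρ k) := by
  have := trace_rhoSum_mul ρ π z 1
  simpa using this

/-- **`V`-side of the annihilator comparison**: if all the traces `∑ π t_k * trace ρ (k * h)` lie
in `I`, then `rhoSum z` maps `V` into `I V`. -/
theorem rhoSum_apply_mem (habs : ρ.residual.IsAbsolutelyIrreducible) (I : Ideal T)
    (z : Γℚ →₀ TT)
    (hz : ∀ h : Γℚ, (z.sum fun k t => π t * LinearMap.trace T ρ.V (ρ.ρ (k * h))) ∈ I)
    (v : ρ.V) : rhoSum ρ π z v ∈ I • (⊤ : Submodule T ρ.V) := by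
  refine Gram.apply_mem_smul_top_of_trace_mem ρ habs I (rhoSum ρ π z) (fun g => ?_) v
  rw [trace_rhoSum_mul]
  exact hz g

section GramHecke

omit [IsLocalRing T] in
/-- Determinants of matrices which are congruent modulo `I` are congruent modulo `I`. -/
theorem det_sub_det_mem {n : Type*} [Fintype n] [DecidableEq n] (I : Ideal T)
    (A B : Matrix n n T) (h : ∀ i j, A i j - B i j ∈ I) : A.det - B.det ∈ I := by
  rw [← Ideal.Quotient.eq, RingHom.map_det, RingHom.map_det]
  congr 1
  ext i j
  rw [RingHom.mapMatrix_apply, RingHom.mapMatrix_apply, Matrix.map_apply, Matrix.map_apply,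
    Ideal.Quotient.eq]
  exact h i j

/-- A unit plus an element of a proper ideal is a unit. -/
theorem isUnit_of_sub_mem {I : Ideal T} (hI : I ≠ ⊤) {a b : T} (ha : IsUnit a)
    (hab : a - b ∈ I) : IsUnit b := by
  by_contra hb
  have hbm : b ∈ IsLocalRing.maximalIdeal T := by
    rwa [IsLocalRing.mem_maximalIdeal, mem_nonunits_iff]
  have hIm : I ≤ IsLocalRing.maximalIdeal T := IsLocalRing.le_maximalIdeal hI
  have ham : a ∈ IsLocalRing.maximalIdeal T := by
    have : a = (a - b) + b := by ring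
    rw [this]
    exact Ideal.add_mem _ (hIm hab) hbm
  rw [IsLocalRing.mem_maximalIdeal, mem_nonunits_iff] at ham
  exact ham ha

/-- **Gram quadruple with unit Hecke Gram determinant** (function form): if `y : Γℚ → TT`
approximates the traces of `ρ` modulo a proper ideal `I`, there is a quadruple `g` such that
`π (det (y (g i * g j)))` is a unit of `T`. -/
theorem exists_gram_of_approx (habs : ρ.residual.IsAbsolutelyIrreducible) (I : Ideal T)
    (hI : I ≠ ⊤) (y : Γℚ → TT) (hy : ∀ g, LinearMap.trace T ρ.V (ρ.ρ g) - π (y g) ∈ I) :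
    ∃ g : Fin 4 → Γℚ,
      IsUnit (Matrix.det (Matrix.of fun i j : Fin 4 =>
        LinearMap.trace T ρ.V (ρ.ρ (g i * g j)))) ∧
      IsUnit (π (Matrix.det (Matrix.of fun i j : Fin 4 => y (g i * g j)))) := by
  obtain ⟨g, hg⟩ := Gram.exists_isUnit_det_trace ρ habs
  refine ⟨g, hg, ?_⟩
  rw [RingHom.map_det]
  refine isUnit_of_sub_mem hI hg (det_sub_det_mem I _ _ fun i j => ?_)
  rw [Matrix.of_apply, RingHom.mapMatrix_apply, Matrix.map_apply, Matrix.of_apply]
  exact hy _

/-- **Gram quadruple with unit Hecke Gram determinant** (matrix form). -/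
theorem exists_gram_hecke (habs : ρ.residual.IsAbsolutelyIrreducible) (I : Ideal T)
    (hI : I ≠ ⊤) (hy : ∀ g : Γℚ, ∃ y : TT, LinearMap.trace T ρ.V (ρ.ρ g) - π y ∈ I) :
    ∃ (g : Fin 4 → Γℚ) (Y : Fin 4 → Fin 4 → TT),
      (∀ i j, LinearMap.trace T ρ.V (ρ.ρ (g i * g j)) - π (Y i j) ∈ I) ∧
      IsUnit (π (Matrix.det (Matrix.of Y))) := by
  choose y hy using hy
  obtain ⟨g, -, hg⟩ := exists_gram_of_approx ρ π habs I hI y hy
  exact ⟨g, fun i j => y (g i * g j), fun i j => hy _, hg⟩

end GramHecke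

end Fermat.Agent.S19x.C.VSide
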