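/-
P-S19 (S19 then S32), BLOCK C (architect helper55), C7 adapter (helper68): from the annihilator
comparison in helper55's vocabulary (`AnnCore.act`, `VSide.rhoSum`) to `IsFFPoints` of a finite level
`ρ.V ⧸ I • ⊤` of an adic Galois representation.

`W` a `TT`-module with a `TT`-linear action `gal` of `G_ℚ` (think `HeckeMod.HM D m`,
`HeckeMod.galHM D m`), `ρ : GaloisRepAdic T`, `π : TT →+* T`, `I` an ideal of `T` with `ρ.V ⧸ I • ⊤`
finite, `s : TT`.  If every formal sum `z : G_ℚ →₀ TT` with `act gal z = 0` on `s • W` satisfies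
`rhoSum ρ π z V ≤ I • V`, then `IsFFPoints p W → IsFFPoints p (ρ.V ⧸ I • ⊤) (ρ.levelAction I)`.
-/
import Mathlib
import Fermat.Agent.S56x.Dict.FFPoints
import Fermat.Agent.S19x.C.AnnCore
import Fermat.Agent.S19x.C.VSide
import Fermat.Agent.S19x.C.SubQuot3

set_option autoImplicit false

noncomputable section

namespace Fermat.Agent.S19x.C.AnnToFlat

open Fermat.Agent.S56x.Dict.FFPoints Fermat.Agent.S19x.C

local notation "Γℚ" => (AlgebraicClosure ℚ ≃ₐ[ℚ] AlgebraicClosure ℚ)
local notation "Qb" => AlgebraicClosure ℚ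

section Gen

variable {G : Type*} [Group G] {TT : Type*} [CommRing TT] {M : Type*} [AddCommGroup M]
  [Module TT M]

/-- a linear action, as an action by additive endomorphisms. -/
def toAddEnd (gal : G →* Module.End TT M) : G →* AddMonoid.End M where
  toFun g := (gal g).toAddMonoidHom
  map_one' := by
    rw [map_one]
    rfl
  map_mul' g h := by
    rw [map_mul]
    rfl

@[simp] theorem toAddEnd_apply (gal : G →* Module.End TT M) (g : G) (x : M) :
    toAddEnd gal g x = gal g x := rfl

theorem toAddEnd_commute (gal : G →* Module.End TT M) (g : G) (t : TT) :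
    Commute (toAddEnd gal g) (Module.toAddMonoidEnd TT M t) := by
  apply AddMonoidHom.ext
  intro x
  show gal g (t • x) = t • gal g x
  rw [map_smul]

/-- `act` of a finite family. -/
theorem act_finset_sum (gal : G →* Module.End TT M) (S : Finset G) (t : G → TT) (x : M) :
    AnnCore.act gal (∑ g ∈ S, Finsupp.single g (t g)) x = ∑ g ∈ S, t g • gal g x := by
  rw [map_sum, LinearMap.sum_apply]
  refine Finset.sum_congr rfl (fun g _ => ?_)
  rw [AnnCore.act_single]
  rfl

end Gen

section Level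

variable {T : Type} [CommRing T] [IsLocalRing T] (ρ : GaloisRepAdic T) (I : Ideal T)

theorem levelAction_mk (σ : Γℚ) (x : ρ.V) :
    ρ.levelAction I σ (Submodule.Quotient.mk x) = Submodule.Quotient.mk (ρ.ρ σ x) := rfl

/-- the level action as a monoid hom. -/
def levelHom : Γℚ →* Module.End T (ρ.V ⧸ (I • (⊤ : Submodule T ρ.V))) where
  toFun σ := ρ.levelAction I σ
  map_one' := by
    apply LinearMap.ext
    intro v
    obtain ⟨x, rfl⟩ := Submodule.Quotient.mk_surjective _ v
    rw [levelAction_mk, map_one]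
    rfl
  map_mul' σ τ := by
    apply LinearMap.ext
    intro v
    obtain ⟨x, rfl⟩ := Submodule.Quotient.mk_surjective _ v
    rw [levelAction_mk, map_mul]
    rfl

@[simp] theorem levelHom_apply (σ : Γℚ) (v : ρ.V ⧸ (I • (⊤ : Submodule T ρ.V))) :
    levelHom ρ I σ v = ρ.levelAction I σ v := rfl

variable {TT : Type*} [CommRing TT] (π : TT →+* T)

/-- `rhoSum` of a finite family, on a vector. -/
theorem rhoSum_finset_sum (S : Finset Γℚ) (t : Γℚ → TT) (x : ρ.V) :
    VSide.rhoSum ρ π (∑ g ∈ S, Finsupp.single g (t g)) x = ∑ g ∈ S, π (t g) • ρ.ρ g x := by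
  classical
  induction S using Finset.induction_on with
  | empty => simp
  | insert a S ha ih =>
    rw [Finset.sum_insert ha, Finset.sum_insert ha, VSide.rhoSum_add, LinearMap.add_apply, ih,
      VSide.rhoSum_single]
    rfl

end Level

universe u

/-- **C7 adapter.**  From the annihilator comparison (`act gal z = 0` on `s • W` implies
`rhoSum ρ π z V ≤ I V`) to `IsFFPoints` of the level `ρ.V ⧸ I • ⊤`. -/
theorem isFFPoints_level_of_annihilator {p : ℕ} [Fact p.Prime] {TT : Type u} [CommRing TT]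
    {T : Type} [CommRing T] [IsLocalRing T] (ρ : GaloisRepAdic T) (π : TT →+* T) (I : Ideal T)
    [Finite (ρ.V ⧸ (I • (⊤ : Submodule T ρ.V)))]
    {W : Type} [AddCommGroup W] [Module TT W] (gal : Γℚ →* Module.End TT W) (s : TT)
    (hann : ∀ z : Γℚ →₀ TT, (∀ w : W, AnnCore.act gal z (s • w) = 0) →
      ∀ v : ρ.V, VSide.rhoSum ρ π z v ∈ I • (⊤ : Submodule T ρ.V))
    {actW : Γℚ → W → W} (hactW : ∀ σ w, actW σ w = gal σ w)
    (hW : IsFFPoints p W actW) :
    IsFFPoints p (ρ.V ⧸ (I • (⊤ : Submodule T ρ.V))) (fun σ => ρ.levelAction I σ) := by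
  refine SubQuot3.isFFPoints_of_annihilator (TT := TT)
    (toAddEnd gal) (Module.toAddMonoidEnd TT W) (toAddEnd_commute gal)
    (toAddEnd (levelHom ρ I))
    ((Module.toAddMonoidEnd T (ρ.V ⧸ (I • (⊤ : Submodule T ρ.V)))).comp π)
    (fun σ t => toAddEnd_commute (levelHom ρ I) σ (π t))
    (fun w => s • w) (fun S t h v => ?_) hactW (fun σ v => rfl) hW
  -- the annihilator comparison in the finite family form
  obtain ⟨x, rfl⟩ := Submodule.Quotient.mk_surjective _ v
  have hz : ∀ w : W, AnnCore.act gal (∑ g ∈ S, Finsupp.single g (t g)) (s • w) = 0 := by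
    intro w
    rw [act_finset_sum]
    exact h w
  have hmem := hann _ hz x
  rw [rhoSum_finset_sum] at hmem
  have h0 : (Submodule.Quotient.mk (∑ g ∈ S, π (t g) • ρ.ρ g x) :
      ρ.V ⧸ (I • (⊤ : Submodule T ρ.V))) = 0 := (Submodule.Quotient.mk_eq_zero _).mpr hmem
  rw [← h0]
  have h1 : (Submodule.Quotient.mk (∑ g ∈ S, π (t g) • ρ.ρ g x) :
      ρ.V ⧸ (I • (⊤ : Submodule T ρ.V))) =
      ∑ g ∈ S, (Submodule.Quotient.mk (π (t g) • ρ.ρ g x) :
        ρ.V ⧸ (I • (⊤ : Submodule T ρ.V))) :=
    map_sum (Submodule.mkQ (I • (⊤ : Submodule T ρ.V))) _ S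
  rw [h1]
  refine Finset.sum_congr rfl (fun g _ => ?_)
  rfl

end Fermat.Agent.S19x.C.AnnToFlat
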