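/-
P-S19 stage 2 (S32 bridge), BLOCK C, a piece of leaf C6 (board key `S19_C_PLAN`): the
CYCLOTOMIC OPERATOR.

* `cycExp m g : ℕ` : an exponent with `g ζ = ζ ^ cycExp m g` for all `m`-th roots of unity `ζ` of
  `ℚ̄` (well defined modulo `m`; multiplicative modulo `m`).
* `cycOp M m g : AddMonoid.End M` : multiplication by `cycExp m g` on an abelian group `M`; on a
  group killed by `m` it is a monoid homomorphism in `g` (`cycHom`), central, and equal to the cast
  of ANY exponent describing the action of `g` on `μ_m`.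
* `exists_hecke_eq` : the level `m` approximation `Gateway.S31Red.exists_approx` restated with the
  canonical operator: for every `g` there is a Hecke operator `y` with
  `trace ρ(g) ≡ π y`, `det ρ(g) ≡ cycExp (p ^ m) g` modulo `m_T ^ m`, and
  `hecke y = gal g + cycOp g * gal g⁻¹` on `D.M m`.
-/
import Mathlib
import Fermat.Agent.Gateway.S31Reduction

set_option autoImplicit false

namespace Fermat.Agent.S19x.C.CycOp

open Fermat.Agent.Gateway.S31Red

local notation "Γℚ" => (AlgebraicClosure ℚ ≃ₐ[ℚ] AlgebraicClosure ℚ)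
local notation "Qbar" => AlgebraicClosure ℚ

section Exp

/-- Every automorphism acts on the `m`-th roots of unity by a power. -/
theorem exists_exp (m : ℕ) (hm : m ≠ 0) (g : Γℚ) :
    ∃ e : ℕ, ∀ ζ : Qbar, ζ ^ m = 1 → g ζ = ζ ^ e := by
  have : NeZero m := ⟨hm⟩
  obtain ⟨ζ0, hζ0⟩ := HasEnoughRootsOfUnity.exists_primitiveRoot Qbar m
  have h1 : (g ζ0) ^ m = 1 := by rw [← map_pow, hζ0.pow_eq_one, map_one]
  obtain ⟨e, -, he⟩ := hζ0.eq_pow_of_pow_eq_one h1
  refine ⟨e, fun ζ hζ => ?_⟩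
  obtain ⟨i, -, rfl⟩ := hζ0.eq_pow_of_pow_eq_one hζ
  rw [map_pow, ← he, ← pow_mul, ← pow_mul, mul_comm]

/-- An exponent describing the action of `g` on the `m`-th roots of unity. -/
noncomputable def cycExp (m : ℕ) (g : Γℚ) : ℕ :=
  if hm : m = 0 then 1 else Classical.choose (exists_exp m hm g)

theorem cycExp_spec {m : ℕ} (hm : m ≠ 0) (g : Γℚ) (ζ : Qbar) (hζ : ζ ^ m = 1) :
    g ζ = ζ ^ cycExp m g := by
  unfold cycExp
  rw [dif_neg hm]
  exact Classical.choose_spec (exists_exp m hm g) ζ hζ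

/-- Any exponent describing the action of `g` on `μ_m` is congruent to `cycExp m g`. -/
theorem modEq_cycExp {m : ℕ} (hm : m ≠ 0) (g : Γℚ) (e : ℕ)
    (he : ∀ ζ : Qbar, ζ ^ m = 1 → g ζ = ζ ^ e) : e ≡ cycExp m g [MOD m] := by
  have : NeZero m := ⟨hm⟩
  obtain ⟨ζ0, hζ0⟩ := HasEnoughRootsOfUnity.exists_primitiveRoot Qbar m
  refine modEq_of_pow_eq hζ0 hm ?_
  rw [← he ζ0 hζ0.pow_eq_one, ← cycExp_spec hm g ζ0 hζ0.pow_eq_one]

theorem cycExp_mul_modEq {m : ℕ} (hm : m ≠ 0) (g h : Γℚ) :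
    cycExp m g * cycExp m h ≡ cycExp m (g * h) [MOD m] := by
  refine modEq_cycExp hm (g * h) _ fun ζ hζ => ?_
  have hζ' : (ζ ^ cycExp m h) ^ m = 1 := by rw [← pow_mul, mul_comm, pow_mul, hζ, one_pow]
  rw [AlgEquiv.mul_apply, cycExp_spec hm h ζ hζ, cycExp_spec hm g _ hζ', ← pow_mul, mul_comm]

theorem cycExp_one_modEq {m : ℕ} (hm : m ≠ 0) : 1 ≡ cycExp m 1 [MOD m] :=
  modEq_cycExp hm 1 1 fun ζ _ => by rw [AlgEquiv.one_apply, pow_one]

end Exp

section Op

variable (M : Type*) [AddCommGroup M]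

/-- Multiplication by the cyclotomic exponent. -/
noncomputable def cycOp (m : ℕ) (g : Γℚ) : AddMonoid.End M :=
  (cycExp m g : AddMonoid.End M)

variable {M}

theorem cycOp_apply (m : ℕ) (g : Γℚ) (x : M) : cycOp M m g x = cycExp m g • x := by
  unfold cycOp
  rw [AddMonoid.End.natCast_apply]

theorem cycOp_commute (m : ℕ) (g : Γℚ) (a : AddMonoid.End M) : Commute (cycOp M m g) a :=
  Nat.cast_commute _ _

/-- Congruent exponents act in the same way on a group killed by the modulus. -/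
theorem natCast_end_eq_of_modEq {m : ℕ} (hM : ∀ x : M, m • x = 0) {e1 e2 : ℕ}
    (h : e1 ≡ e2 [MOD m]) : (e1 : AddMonoid.End M) = (e2 : AddMonoid.End M) := by
  ext x
  rw [AddMonoid.End.natCast_apply, AddMonoid.End.natCast_apply]
  have key : ∀ a b : ℕ, a ≤ b → a ≡ b [MOD m] → a • x = b • x := by
    intro a b hab hmod
    obtain ⟨c, hc⟩ := (Nat.modEq_iff_dvd' hab).mp hmod
    have : b = a + m * c := by omega
    rw [this, add_smul, mul_comm, mul_smul, hM, smul_zero, add_zero]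
  rcases le_total e1 e2 with h12 | h12
  · exact key e1 e2 h12 h
  · exact (key e2 e1 h12 h.symm).symm

/-- On a group killed by `m`, the cast of ANY exponent describing the action of `g` on `μ_m` is
the cyclotomic operator. -/
theorem natCast_eq_cycOp {m : ℕ} (hm : m ≠ 0) (hM : ∀ x : M, m • x = 0) (g : Γℚ) (e : ℕ)
    (he : ∀ ζ : Qbar, ζ ^ m = 1 → g ζ = ζ ^ e) : (e : AddMonoid.End M) = cycOp M m g :=
  natCast_end_eq_of_modEq hM (modEq_cycExp hm g e he)

theorem cycOp_mul {m : ℕ} (hm : m ≠ 0) (hM : ∀ x : M, m • x = 0) (g h : Γℚ) :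
    cycOp M m (g * h) = cycOp M m g * cycOp M m h := by
  unfold cycOp
  rw [← Nat.cast_mul]
  exact (natCast_end_eq_of_modEq hM (cycExp_mul_modEq hm g h)).symm

theorem cycOp_one {m : ℕ} (hm : m ≠ 0) (hM : ∀ x : M, m • x = 0) : cycOp M m 1 = 1 := by
  unfold cycOp
  rw [← Nat.cast_one]
  exact (natCast_end_eq_of_modEq hM (cycExp_one_modEq hm)).symm

/-- The cyclotomic operator as a monoid homomorphism. -/
noncomputable def cycHom {m : ℕ} (hm : m ≠ 0) (hM : ∀ x : M, m • x = 0) :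
    Γℚ →* AddMonoid.End M where
  toFun := cycOp M m
  map_one' := cycOp_one hm hM
  map_mul' := cycOp_mul hm hM

@[simp] theorem cycHom_apply {m : ℕ} (hm : m ≠ 0) (hM : ∀ x : M, m • x = 0) (g : Γℚ) :
    cycHom hm hM g = cycOp M m g := rfl

theorem cycOp_mul_inv {m : ℕ} (hm : m ≠ 0) (hM : ∀ x : M, m • x = 0) (g : Γℚ) :
    cycOp M m g * cycOp M m g⁻¹ = 1 := by
  rw [← cycOp_mul hm hM, mul_inv_cancel, cycOp_one hm hM]

end Op

section Approx

variable {p : ℕ} {N : ℕ} [NeZero N] {S : Finset ℕ}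
  {𝒪 : Type} [CommRing 𝒪] [IsDomain 𝒪] [IsDiscreteValuationRing 𝒪]
  [IsAdicComplete (IsLocalRing.maximalIdeal 𝒪) 𝒪]
  {θ : CuspForm.heckeAlgebra N 2 (↑S : Set ℕ) →+* IsLocalRing.ResidueField 𝒪}
  {T : Type} [CommRing T] [IsLocalRing T] [IsNoetherianRing T]
  [IsAdicComplete (IsLocalRing.maximalIdeal T) T] [Algebra 𝒪 T] [IsLocalHom (algebraMap 𝒪 T)]
  [Module.Finite 𝒪 T] [Module.Free 𝒪 T]

/-- The level `m` approximation with the canonical cyclotomic operator. -/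
theorem exists_hecke_eq (hF : FrobPowerDense) (hp : p.Prime)
    (hp𝒪 : (p : 𝒪) ∈ IsLocalRing.maximalIdeal 𝒪) (hpS : p ∈ S)
    (hNS : ∀ q : ℕ, q.Prime → q ∣ N → q ∈ S)
    (H : CuspForm.HeckeGaloisRepDatum N (↑S : Set ℕ) 𝒪 θ T) (D : TorsionHeckeData p N S)
    (g : Γℚ) (m : ℕ) :
    ∃ y : CuspForm.heckeAlgebra N 2 (↑S : Set ℕ),
      LinearMap.trace T H.ρ.V (H.ρ.ρ g) - H.π y ∈ IsLocalRing.maximalIdeal T ^ m ∧
      LinearMap.det (H.ρ.ρ g) - (cycExp (p ^ m) g : T) ∈ IsLocalRing.maximalIdeal T ^ m ∧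
      D.hecke m y = D.gal m g + cycOp (D.M m) (p ^ m) g * D.gal m g⁻¹ := by
  have hpm : p ^ m ≠ 0 := pow_ne_zero m hp.ne_zero
  obtain ⟨y, e, htr, hdet, hhe, hζ⟩ := exists_approx hF hp hpS hNS H D g m
  refine ⟨y, htr, ?_, ?_⟩
  · have hmod : e ≡ cycExp (p ^ m) g [MOD p ^ m] := modEq_cycExp hpm g e hζ
    have hpT : (p : T) ∈ IsLocalRing.maximalIdeal T := natCast_mem_maximalIdeal hp𝒪
    have h1 : (e : T) - (cycExp (p ^ m) g : T) ∈ IsLocalRing.maximalIdeal T ^ m := by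
      refine natCast_sub_natCast_mem hmod _ ?_
      rw [Nat.cast_pow]
      exact Ideal.pow_mem_pow hpT m
    have : LinearMap.det (H.ρ.ρ g) - (cycExp (p ^ m) g : T)
        = (LinearMap.det (H.ρ.ρ g) - (e : T)) + ((e : T) - (cycExp (p ^ m) g : T)) := by ring
    rw [this]
    exact Ideal.add_mem _ hdet h1
  · rw [hhe, natCast_eq_cycOp hpm (D.pow_smul m) g e hζ]

end Approx

end Fermat.Agent.S19x.C.CycOp
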