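import Mathlib
import Fermat.Agent.Gateway.S31.Data

/-!
# P-S19 block C (S32 bridge): shared vocabulary (helper55)

For torsion data `D : TorsionHeckeData p N S` (Gateway/S31/Data) and a level `m`:

* `HM D m` : the group `D.M m` as a module over the Hecke algebra `TT = heckeAlgebra N 2 S`
  (`t • x = D.hecke m t x`);
* `galHM D m : Γℚ →* Module.End TT (HM D m)` : the Galois action, `TT`-linear by `D.comm`.

Leaves C6a (cyclotomic operator), C6b (Nakayama choice), C6c (V-side) and C7 (assembly) all use
these names.
-/

set_option autoImplicit false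

namespace Fermat.Agent.S19x.C.HeckeMod

open Fermat.Agent.Gateway.S31Red

local notation "Γℚ" => (AlgebraicClosure ℚ ≃ₐ[ℚ] AlgebraicClosure ℚ)

variable {p N : ℕ} [NeZero N] {S : Finset ℕ}

/-- `D.M m`, to be seen as a module over the Hecke algebra. -/
def HM (D : TorsionHeckeData p N S) (m : ℕ) : Type := D.M m

variable (D : TorsionHeckeData p N S) (m : ℕ)

instance : AddCommGroup (HM D m) := D.instAddCommGroup m

noncomputable instance : Module (CuspForm.heckeAlgebra N 2 (↑S : Set ℕ)) (HM D m) :=
  Module.compHom (D.M m) (D.hecke m)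

/-- The identity `D.M m → HM D m`. -/
def toHM : D.M m ≃+ HM D m := AddEquiv.refl _

theorem smul_def (t : CuspForm.heckeAlgebra N 2 (↑S : Set ℕ)) (x : HM D m) :
    t • x = D.hecke m t x := rfl

theorem pow_smul (x : HM D m) : (p ^ m) • x = 0 := D.pow_smul m x

/-- The Galois action on `HM D m`, as Hecke-linear endomorphisms. -/
noncomputable def galHM : Γℚ →* Module.End (CuspForm.heckeAlgebra N 2 (↑S : Set ℕ)) (HM D m) where
  toFun σ :=
    { toFun := fun x => D.gal m σ x
      map_add' := fun x y => map_add (D.gal m σ) x y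
      map_smul' := fun t x => by
        show D.gal m σ (D.hecke m t x) = D.hecke m t (D.gal m σ x)
        have := D.comm m σ t
        exact congrArg (fun e : AddMonoid.End (D.M m) => e x) this.eq }
  map_one' := by
    ext x
    show D.gal m 1 x = x
    rw [map_one]; rfl
  map_mul' σ τ := by
    ext x
    show D.gal m (σ * τ) x = D.gal m σ (D.gal m τ x)
    rw [map_mul]; rfl

@[simp] theorem galHM_apply (σ : Γℚ) (x : HM D m) : galHM D m σ x = D.gal m σ x := rfl

/-- The algebra map into `Module.End` is the Hecke action. -/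
theorem algebraMap_apply (t : CuspForm.heckeAlgebra N 2 (↑S : Set ℕ)) (x : HM D m) :
    algebraMap (CuspForm.heckeAlgebra N 2 (↑S : Set ℕ))
      (Module.End (CuspForm.heckeAlgebra N 2 (↑S : Set ℕ)) (HM D m)) t x = D.hecke m t x := by
  rw [Module.algebraMap_end_apply]; rfl

end Fermat.Agent.S19x.C.HeckeMod
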