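import Mathlib
import Fermat.Agent.S19x.C.HeckeMod
import Fermat.Agent.Gateway.S31.Approx

/-!
# P-S19 block C (S32 bridge), leaf C6a: the cyclotomic operator (helper71)

For torsion data `D : TorsionHeckeData p N S` and a level `m`, the element `g` of the absolute
Galois group acts on the `p ^ m`-th roots of unity of `ℚ̄` by `ζ ↦ ζ ^ e`; the exponent `e` is well
defined modulo `p ^ m`, so `e • 1` is a well defined endomorphism `cycloOp hp D m g` of
`HM D m` (which is killed by `p ^ m`), multiplicative in `g` and central.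

* `IsCycExp n g e` : `g ζ = ζ ^ e` for all `n`-th roots of unity `ζ`;
* `cycloOp hp D m : Γℚ →* Module.End TT (HM D m)`, `cycloOp_commute`, `cycloOp_eq_natCast`;
* `exists_hecke_eq` : `Approx.exists_approx` repackaged: for every `g` there is a Hecke operator
  `y` with `trace ρ(g) ≡ π y` modulo `m_T ^ m` and `y = g + cycloOp g * g⁻¹` on `HM D m`.
-/

set_option autoImplicit false

namespace Fermat.Agent.S19x.C.Cyclo

open Fermat.Agent.Gateway.S31Red Fermat.Agent.S19x.C.HeckeMod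

local notation "Qbar" => AlgebraicClosure ℚ
local notation "Γℚ" => (AlgebraicClosure ℚ ≃ₐ[ℚ] AlgebraicClosure ℚ)

section CycExp

/-- `e` is a cyclotomic exponent of `g` at level `n`: `g` raises every `n`-th root of unity to the
`e`-th power. -/
def IsCycExp (n : ℕ) (g : Γℚ) (e : ℕ) : Prop :=
  ∀ ζ : Qbar, ζ ^ n = 1 → g ζ = ζ ^ e

variable {n : ℕ}

theorem exists_isCycExp (hn : n ≠ 0) (g : Γℚ) : ∃ e : ℕ, IsCycExp n g e := by
  haveI : NeZero n := ⟨hn⟩
  obtain ⟨ζ0, hζ0⟩ := HasEnoughRootsOfUnity.exists_primitiveRoot Qbar n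
  have h1 : (g ζ0) ^ n = 1 := by rw [← map_pow, hζ0.pow_eq_one, map_one]
  obtain ⟨e, -, he⟩ := hζ0.eq_pow_of_pow_eq_one h1
  refine ⟨e, fun ζ hζ => ?_⟩
  obtain ⟨i, -, rfl⟩ := hζ0.eq_pow_of_pow_eq_one hζ
  rw [map_pow, ← he, ← pow_mul, ← pow_mul, mul_comm]

/-- Two cyclotomic exponents of the same element are congruent modulo `n`. -/
theorem IsCycExp.modEq (hn : n ≠ 0) {g : Γℚ} {e e' : ℕ} (h : IsCycExp n g e)
    (h' : IsCycExp n g e') : e ≡ e' [MOD n] := by
  haveI : NeZero n := ⟨hn⟩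
  obtain ⟨ζ0, hζ0⟩ := HasEnoughRootsOfUnity.exists_primitiveRoot Qbar n
  have h0 := (h ζ0 hζ0.pow_eq_one).symm.trans (h' ζ0 hζ0.pow_eq_one)
  rw [pow_eq_pow_mod e hζ0.pow_eq_one, pow_eq_pow_mod e' hζ0.pow_eq_one] at h0
  exact hζ0.pow_inj (Nat.mod_lt _ (Nat.pos_of_ne_zero hn)) (Nat.mod_lt _ (Nat.pos_of_ne_zero hn)) h0

theorem isCycExp_one : IsCycExp n (1 : Γℚ) 1 := fun ζ _ => by simp

theorem IsCycExp.mul {g h : Γℚ} {e e' : ℕ} (hg : IsCycExp n g e) (hh : IsCycExp n h e') :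
    IsCycExp n (g * h) (e * e') := by
  intro ζ hζ
  rw [AlgEquiv.mul_apply, hh ζ hζ, map_pow, hg ζ hζ, ← pow_mul]

/-- Congruent naturals act in the same way on a module killed by `n`. -/
theorem natCast_end_eq_of_modEq {R M : Type*} [Semiring R] [AddCommGroup M] [Module R M]
    (hM : ∀ x : M, n • x = 0) {e e' : ℕ} (h : e ≡ e' [MOD n]) :
    (e : Module.End R M) = (e' : Module.End R M) := by
  wlog hle : e ≤ e' generalizing e e'
  · exact (this h.symm (le_of_not_ge hle)).symm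
  obtain ⟨c, hc⟩ := (Nat.modEq_iff_dvd' hle).1 h
  ext x
  have h1 : e' = e + n * c := by omega
  rw [Module.End.natCast_apply, Module.End.natCast_apply, h1, add_nsmul, mul_comm, mul_nsmul, hM,
    add_zero]

end CycExp

variable {p N : ℕ} [NeZero N] {S : Finset ℕ}

/-- The cyclotomic operator: `g ↦ e • 1` on `HM D m`, where `g ζ = ζ ^ e` on `μ_{p^m}`. -/
noncomputable def cycloOp (hp : p.Prime) (D : TorsionHeckeData p N S) (m : ℕ) :
    Γℚ →* Module.End (CuspForm.heckeAlgebra N 2 (↑S : Set ℕ)) (HM D m) where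
  toFun g := ((exists_isCycExp (pow_ne_zero m hp.ne_zero) g).choose : Module.End (CuspForm.heckeAlgebra N 2 (↑S : Set ℕ)) (HM D m))
  map_one' := by
    have h1 := (exists_isCycExp (pow_ne_zero m hp.ne_zero) (1 : Γℚ)).choose_spec
    rw [natCast_end_eq_of_modEq (R := (CuspForm.heckeAlgebra N 2 (↑S : Set ℕ))) (HeckeMod.pow_smul D m)
      (h1.modEq (pow_ne_zero m hp.ne_zero) isCycExp_one), Nat.cast_one]
  map_mul' g h := by
    have hg := (exists_isCycExp (pow_ne_zero m hp.ne_zero) g).choose_spec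
    have hh := (exists_isCycExp (pow_ne_zero m hp.ne_zero) h).choose_spec
    have hgh := (exists_isCycExp (pow_ne_zero m hp.ne_zero) (g * h)).choose_spec
    rw [natCast_end_eq_of_modEq (R := (CuspForm.heckeAlgebra N 2 (↑S : Set ℕ))) (HeckeMod.pow_smul D m)
      (hgh.modEq (pow_ne_zero m hp.ne_zero) (hg.mul hh)), Nat.cast_mul]

variable (hp : p.Prime) (D : TorsionHeckeData p N S) (m : ℕ)

theorem cycloOp_eq_natCast (g : Γℚ) (e : ℕ)
    (he : ∀ ζ : Qbar, ζ ^ (p ^ m) = 1 → g ζ = ζ ^ e) :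
    cycloOp hp D m g = (e : Module.End (CuspForm.heckeAlgebra N 2 (↑S : Set ℕ)) (HM D m)) :=
  natCast_end_eq_of_modEq (R := (CuspForm.heckeAlgebra N 2 (↑S : Set ℕ))) (HeckeMod.pow_smul D m)
    ((exists_isCycExp (pow_ne_zero m hp.ne_zero) g).choose_spec.modEq
      (pow_ne_zero m hp.ne_zero) he)

theorem cycloOp_commute (g : Γℚ) (f : Module.End (CuspForm.heckeAlgebra N 2 (↑S : Set ℕ)) (HM D m)) :
    Commute (cycloOp hp D m g) f :=
  Nat.cast_commute _ f

theorem cycloOp_apply (g : Γℚ) (e : ℕ) (he : ∀ ζ : Qbar, ζ ^ (p ^ m) = 1 → g ζ = ζ ^ e)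
    (x : HM D m) : cycloOp hp D m g x = e • x := by
  rw [cycloOp_eq_natCast hp D m g e he, Module.End.natCast_apply]

section Approx

variable {𝒪 : Type} [CommRing 𝒪] [IsDomain 𝒪] [IsDiscreteValuationRing 𝒪]
  [IsAdicComplete (IsLocalRing.maximalIdeal 𝒪) 𝒪]
  {θ : CuspForm.heckeAlgebra N 2 (↑S : Set ℕ) →+* IsLocalRing.ResidueField 𝒪}
  {T : Type} [CommRing T] [IsLocalRing T] [IsNoetherianRing T]
  [IsAdicComplete (IsLocalRing.maximalIdeal T) T] [Algebra 𝒪 T] [IsLocalHom (algebraMap 𝒪 T)]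
  [Module.Finite 𝒪 T] [Module.Free 𝒪 T]

/-- `Approx.exists_approx` repackaged in the vocabulary of `HeckeMod`: for every `g` there is a
Hecke operator `y` with `trace ρ(g) ≡ π y` modulo `m_T ^ m` and
`y = g + cycloOp g * g⁻¹` on `HM D m`. -/
theorem exists_hecke_eq (hF : FrobPowerDense) (hpS : p ∈ S)
    (hNS : ∀ q : ℕ, q.Prime → q ∣ N → q ∈ S)
    (H : CuspForm.HeckeGaloisRepDatum N (↑S : Set ℕ) 𝒪 θ T) (g : Γℚ) :
    ∃ y : (CuspForm.heckeAlgebra N 2 (↑S : Set ℕ)),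
      LinearMap.trace T H.ρ.V (H.ρ.ρ g) - H.π y ∈ IsLocalRing.maximalIdeal T ^ m ∧
      algebraMap (CuspForm.heckeAlgebra N 2 (↑S : Set ℕ)) (Module.End (CuspForm.heckeAlgebra N 2 (↑S : Set ℕ)) (HM D m)) y =
        galHM D m g + cycloOp hp D m g * galHM D m g⁻¹ := by
  obtain ⟨y, e, htr, -, hrel, hζ⟩ := exists_approx hF hp hpS hNS H D g m
  refine ⟨y, htr, ?_⟩
  ext x
  rw [HeckeMod.algebraMap_apply, hrel, LinearMap.add_apply, Module.End.mul_apply,
    cycloOp_apply hp D m g e hζ, galHM_apply, galHM_apply]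
  rfl

end Approx

end Fermat.Agent.S19x.C.Cyclo
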