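import Mathlib

/-!
# P-S19, block C (S32), leaf C6b: two commutative algebra lemmas (helper34)

Mathlib only.

* `exists_projector` : for a FINITE module `W` over a commutative ring `TT` and an ideal `nn`
  there are `s ≡ 1 mod nn` and `k` with `nn ^ k * s` killing `W` (the chain `nn ^ j • ⊤`
  stabilises, then Nakayama).
* `exists_bezout` : for a ring homomorphism `φ : TT → K` to a finite field and `δ` with
  `φ δ ≠ 0`, and every `k`, there are `a b` with `a * δ + b = 1` and `b ∈ (ker φ) ^ k`.
-/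

set_option autoImplicit false
set_option linter.style.haveILetI false

namespace Fermat.Agent.S19x.C.Nakayama

/-- The decreasing chain `nn ^ j • ⊤` of submodules of a finite module stabilises. -/
theorem exists_pow_smul_top_eq {TT : Type*} [CommRing TT] {W : Type*} [AddCommGroup W]
    [Module TT W] [Finite W] (nn : Ideal TT) :
    ∃ k : ℕ, nn • (nn ^ k • (⊤ : Submodule TT W)) = nn ^ k • (⊤ : Submodule TT W) := by
  let f : ℕ →o (Submodule TT W)ᵒᵈ :=
    ⟨fun j => OrderDual.toDual (nn ^ j • (⊤ : Submodule TT W)), by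
      intro i j hij
      change nn ^ j • (⊤ : Submodule TT W) ≤ nn ^ i • (⊤ : Submodule TT W)
      exact Submodule.smul_mono_left (Ideal.pow_le_pow_right hij)⟩
  obtain ⟨k, hk⟩ := IsArtinian.monotone_stabilizes f
  refine ⟨k, ?_⟩
  have h := hk (k + 1) (Nat.le_succ k)
  have h' : nn ^ k • (⊤ : Submodule TT W) = nn ^ (k + 1) • (⊤ : Submodule TT W) := by
    simpa [f] using congrArg OrderDual.ofDual h
  rw [← Submodule.mul_smul, ← pow_succ']
  exact h'.symm

/-- **The `nn`-adic projector on a finite module**: there are `s ≡ 1 mod nn` and `k` such that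
`nn ^ k * s` kills `W`. -/
theorem exists_projector {TT : Type*} [CommRing TT] {W : Type*} [AddCommGroup W] [Module TT W]
    [Finite W] (nn : Ideal TT) :
    ∃ (s : TT) (k : ℕ), s - 1 ∈ nn ∧ ∀ t ∈ nn ^ k, ∀ w : W, (t * s) • w = 0 := by
  obtain ⟨k, hk⟩ := exists_pow_smul_top_eq (W := W) nn
  have hfg : (nn ^ k • (⊤ : Submodule TT W)).FG := by
    exact IsNoetherian.noetherian _
  obtain ⟨s, hs1, hs⟩ := Submodule.exists_sub_one_mem_and_smul_eq_zero_of_fg_of_le_smul nn
    (nn ^ k • (⊤ : Submodule TT W)) hfg hk.ge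
  refine ⟨s, k, hs1, fun t ht w => ?_⟩
  rw [mul_comm, mul_smul]
  exact hs _ (Submodule.smul_mem_smul ht Submodule.mem_top)

/-- **Bezout modulo a power of the kernel**: if `φ δ ≠ 0` in a finite field then `δ` is a unit
modulo every power of `ker φ`, in Bezout form. -/
theorem exists_bezout {TT : Type*} [CommRing TT] {K : Type*} [Field K] [Finite K]
    (φ : TT →+* K) (δ : TT) (hδ : φ δ ≠ 0) (k : ℕ) :
    ∃ a b : TT, a * δ + b = 1 ∧ b ∈ (RingHom.ker φ) ^ k := by
  classical
  letI : Fintype K := Fintype.ofFinite K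
  set q := Fintype.card K with hq
  have hq2 : 2 ≤ q := by
    have := Fintype.one_lt_card (α := K)
    omega
  set c : TT := 1 - δ ^ (q - 1) with hc
  have hcker : c ∈ RingHom.ker φ := by
    rw [RingHom.mem_ker, hc, map_sub, map_one, map_pow,
      FiniteField.pow_card_sub_one_eq_one (φ δ) hδ, sub_self]
  have hcop : IsCoprime δ c := by
    refine ⟨δ ^ (q - 2), 1, ?_⟩
    rw [hc, ← pow_succ, show q - 2 + 1 = q - 1 by omega]
    ring
  obtain ⟨a, b', hab⟩ := hcop.pow_right (n := k)
  refine ⟨a, b' * c ^ k, hab, ?_⟩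
  exact Ideal.mul_mem_left _ _ (Ideal.pow_mem_pow hcker k)

end Fermat.Agent.S19x.C.Nakayama
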