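/-
P-S19 stage 2 (S32 bridge), BLOCK C, C7 assembly - independent second (helper68; primary = helper55).

`isFlatAt_of_isFFPoints` : for `H : HeckeGaloisRepDatum N S 𝒪 θ T` and torsion data
`D : TorsionHeckeData p N S` (Gateway/S31/Data), if every level `D.M m` with its Galois action is
the group of points of a finite flat group scheme over `ℤ_(p)` (`IsFFPoints`), then `H.ρ` is flat at
`p`.  Proof: `isFlatAt_iff` + for each `I` with `T ⧸ I` finite the annihilator comparison
(`AnnCompare.sum_trace_mem` + `VSide.rhoSum_apply_mem`) with the choices of C6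
(`Cyclo.exists_hecke_eq`, `VSide.exists_gram_of_approx`, `Nakayama.exists_projector`,
`Nakayama.exists_bezout`, `D.faithful`) fed to `AnnToFlat.isFFPoints_level_of_annihilator`.
-/
import Mathlib
import Fermat.Agent.S56x.Dict.FFPoints
import Fermat.Agent.S19x.C.AnnCompare
import Fermat.Agent.S19x.C.HeckeMod
import Fermat.Agent.S19x.C.Cyclo
import Fermat.Agent.S19x.C.Nakayama
import Fermat.Agent.S19x.C.VSide
import Fermat.Agent.S19x.C.AnnToFF
import Fermat.Agent.S19x.C.AnnToFlat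

set_option autoImplicit false

noncomputable section

namespace Fermat.Agent.S19x.C.FlatOfFF

open Fermat.Agent.S56x.Dict.FFPoints Fermat.Agent.S19x.C Fermat.Agent.Gateway.S31Red
  Fermat.Agent.S19x.C.HeckeMod IsLocalRing

local notation "Γℚ" => (AlgebraicClosure ℚ ≃ₐ[ℚ] AlgebraicClosure ℚ)
local notation "Qb" => AlgebraicClosure ℚ

section Alg

variable {T : Type*} [CommRing T] [IsLocalRing T]

/-- In a local ring, a proper ideal with finite quotient contains a power of the maximal ideal. -/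
theorem exists_pow_maximalIdeal_le (I : Ideal T) [Finite (T ⧸ I)] (_hI : I ≠ ⊤) :
    ∃ n : ℕ, maximalIdeal T ^ n ≤ I := by
  haveI : IsArtinianRing (T ⧸ I) := inferInstance
  obtain ⟨n, hn⟩ := (IsArtinianRing.isNilpotent_jacobson_bot (R := T ⧸ I))
  refine ⟨n, ?_⟩
  have hle : Ideal.map (Ideal.Quotient.mk I) (maximalIdeal T) ≤
      Ideal.jacobson (⊥ : Ideal (T ⧸ I)) := by
    rw [Ideal.jacobson, le_sInf_iff]
    rintro M ⟨-, hM⟩
    rw [Ideal.map_le_iff_le_comap]
    haveI : (Ideal.comap (Ideal.Quotient.mk I) M).IsMaximal :=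
      Ideal.comap_isMaximal_of_surjective _ Ideal.Quotient.mk_surjective
    rw [IsLocalRing.eq_maximalIdeal (I := Ideal.comap (Ideal.Quotient.mk I) M) inferInstance]
  have h1 : Ideal.map (Ideal.Quotient.mk I) (maximalIdeal T ^ n) ≤ ⊥ := by
    rw [Ideal.map_pow]
    calc Ideal.map (Ideal.Quotient.mk I) (maximalIdeal T) ^ n
        ≤ Ideal.jacobson (⊥ : Ideal (T ⧸ I)) ^ n := Ideal.pow_right_mono hle n
      _ = ⊥ := by rw [hn]; rfl
  intro x hx
  have h2 : Ideal.Quotient.mk I x ∈ (⊥ : Ideal (T ⧸ I)) := h1 (Ideal.mem_map_of_mem _ hx)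
  rw [Ideal.mem_bot, Ideal.Quotient.eq_zero_iff_mem] at h2
  exact h2

/-- An element congruent to `1` modulo the maximal ideal is a unit. -/
theorem isUnit_of_sub_one_mem {a : T} (ha : a - 1 ∈ maximalIdeal T) : IsUnit a := by
  by_contra hna
  have ham : a ∈ maximalIdeal T := by
    rwa [IsLocalRing.mem_maximalIdeal, mem_nonunits_iff]
  have h1 : (1 : T) ∈ maximalIdeal T := by
    have : (1 : T) = a - (a - 1) := by ring
    rw [this]
    exact Ideal.sub_mem _ ham ha
  exact (Ideal.ne_top_iff_one _).mp (IsLocalRing.maximalIdeal.isMaximal T).ne_top h1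

end Alg

variable {p : ℕ} {N : ℕ} [NeZero N] {S : Finset ℕ}
  {𝒪 : Type} [CommRing 𝒪] [IsDomain 𝒪] [IsDiscreteValuationRing 𝒪]
  [IsAdicComplete (IsLocalRing.maximalIdeal 𝒪) 𝒪]
  {θ : CuspForm.heckeAlgebra N 2 (↑S : Set ℕ) →+* IsLocalRing.ResidueField 𝒪}
  {T : Type} [CommRing T] [IsLocalRing T] [IsNoetherianRing T]
  [IsAdicComplete (IsLocalRing.maximalIdeal T) T] [Algebra 𝒪 T] [IsLocalHom (algebraMap 𝒪 T)]
  [Module.Finite 𝒪 T] [Module.Free 𝒪 T]

/-- the residue field of `T` is finite. -/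
theorem finite_residueField [Finite (IsLocalRing.ResidueField 𝒪)]
    (H : CuspForm.HeckeGaloisRepDatum N (↑S : Set ℕ) 𝒪 θ T) :
    Finite (IsLocalRing.ResidueField T) := by
  refine Finite.of_surjective (IsLocalRing.ResidueField.map (algebraMap 𝒪 T)) (fun x => ?_)
  obtain ⟨a, ha⟩ := H.residue_surjective x
  exact ⟨IsLocalRing.residue 𝒪 a, ha⟩

/-- `p` lies in the maximal ideal of `T`. -/
theorem natCast_mem_maximalIdeal (hp𝒪 : (p : 𝒪) ∈ IsLocalRing.maximalIdeal 𝒪) :
    (p : T) ∈ IsLocalRing.maximalIdeal T := by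
  have h1 : (p : T) = algebraMap 𝒪 T (p : 𝒪) := (map_natCast (algebraMap 𝒪 T) p).symm
  rw [h1, IsLocalRing.mem_maximalIdeal, mem_nonunits_iff]
  intro hu
  exact (IsLocalRing.mem_maximalIdeal _).mp hp𝒪 (isUnit_of_map_unit (algebraMap 𝒪 T) _ hu)

/-- **One level.**  `IsFFPoints` of the level `H.ρ.V ⧸ I • ⊤` from `IsFFPoints` of a deep enough
torsion level of `D`. -/
theorem isFFPoints_level [Finite (IsLocalRing.ResidueField 𝒪)]
    (hF : FrobPowerDense) (hp : p.Prime) (hp𝒪 : (p : 𝒪) ∈ IsLocalRing.maximalIdeal 𝒪)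
    (hpS : p ∈ S) (hNS : ∀ q : ℕ, q.Prime → q ∣ N → q ∈ S)
    (H : CuspForm.HeckeGaloisRepDatum N (↑S : Set ℕ) 𝒪 θ T) (D : TorsionHeckeData p N S)
    (hFF : ∀ m, IsFFPoints p (D.M m) (fun σ x => D.gal m σ x))
    (I : Ideal T) [Finite (T ⧸ I)] (hI : I ≠ ⊤) :
    IsFFPoints p (H.ρ.V ⧸ (I • (⊤ : Submodule T H.ρ.V))) (fun σ => H.ρ.levelAction I σ) := by
  classical
  haveI : Fact p.Prime := ⟨hp⟩
  haveI hresfin : Finite (IsLocalRing.ResidueField T) := finite_residueField H
  haveI : Module.Finite (T ⧸ I) (H.ρ.V ⧸ (I • (⊤ : Submodule T H.ρ.V))) := inferInstance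
  haveI : Finite (H.ρ.V ⧸ (I • (⊤ : Submodule T H.ρ.V))) := Module.finite_of_finite (T ⧸ I)
  -- the level
  obtain ⟨n, hn⟩ := exists_pow_maximalIdeal_le I hI
  obtain ⟨c0, hc0⟩ := D.faithful
  set m : ℕ := n + c0 with hm
  have hmI : maximalIdeal T ^ m ≤ I :=
    (Ideal.pow_le_pow_right (Nat.le_add_right n c0)).trans hn
  have hW : IsFFPoints p (HM D m) (fun σ x => D.gal m σ x) := hFF m
  haveI : Finite (HM D m) := AnnToFF.finite_of_isFFPoints hW
  -- the approximating Hecke operators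
  have hex := fun g : Γℚ => Cyclo.exists_hecke_eq hp D m hF hpS hNS H g
  choose y hy1 hy2 using hex
  have happrox : ∀ g, LinearMap.trace T H.ρ.V (H.ρ.ρ g) - H.π (y g) ∈ I := fun g => hmI (hy1 g)
  -- the Gram quadruple
  obtain ⟨g, -, hg⟩ := VSide.exists_gram_of_approx H.ρ H.π H.residual_absIrr I hI y happrox
  set δ := Matrix.det (Matrix.of fun i j : Fin 4 => y (g i * g j)) with hδ
  -- the maximal ideal of the Hecke algebra
  let φ : CuspForm.heckeAlgebra N 2 (↑S : Set ℕ) →+* IsLocalRing.ResidueField T :=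
    (IsLocalRing.residue T).comp H.π
  have hφδ : φ δ ≠ 0 := by
    show IsLocalRing.residue T (H.π δ) ≠ 0
    rw [Ne, IsLocalRing.residue_eq_zero_iff, IsLocalRing.mem_maximalIdeal, mem_nonunits_iff]
    exact fun h => h hg
  obtain ⟨s, k, hs1, hsk⟩ := Nakayama.exists_projector (W := HM D m) (RingHom.ker φ)
  obtain ⟨a, b, hab, hb⟩ := Nakayama.exists_bezout φ δ hφδ k
  have hbs : ∀ w : HM D m, (b * s) • w = 0 := fun w => hsk b hb w
  -- `π s` is a unit
  have hπs : IsUnit (H.π s) := by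
    apply isUnit_of_sub_one_mem
    have h1 : φ (s - 1) = 0 := hs1
    have h2 : IsLocalRing.residue T (H.π (s - 1)) = 0 := h1
    rw [IsLocalRing.residue_eq_zero_iff, map_sub, map_one] at h2
    exact h2
  -- faithfulness
  have hpT : (p : T) ∈ maximalIdeal T := natCast_mem_maximalIdeal hp𝒪
  have hfaith : ∀ t : CuspForm.heckeAlgebra N 2 (↑S : Set ℕ),
      (∀ w : HM D m, (s * t) • w = 0) → H.π t ∈ I := by
    intro t ht
    have h0 : D.hecke (n + c0) (s * t) = 0 := by
      apply AddMonoidHom.ext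
      intro w
      exact ht w
    obtain ⟨y', hy'⟩ := hc0 (s * t) n h0
    have h1 : H.π s * H.π t = (p : T) ^ n * H.π y' := by
      rw [← map_mul, hy', map_zsmul, zsmul_eq_mul]
      push_cast
      rfl
    have h2 : H.π s * H.π t ∈ I := by
      rw [h1]
      exact Ideal.mul_mem_right _ _ (hn (Ideal.pow_mem_pow hpT n))
    obtain ⟨u, hu⟩ := hπs
    have h3 : H.π t = (↑u⁻¹ : T) * (H.π s * H.π t) := by
      rw [← mul_assoc, ← hu, Units.inv_mul, one_mul]
    rw [h3]
    exact Ideal.mul_mem_left _ _ h2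
  -- the annihilator comparison
  refine AnnToFlat.isFFPoints_level_of_annihilator H.ρ H.π I (galHM D m) s
    (fun z hz v => ?_) (fun σ w => rfl) hW
  refine VSide.rhoSum_apply_mem H.ρ H.π H.residual_absIrr I z (fun h => ?_) v
  exact AnnCompare.sum_trace_mem (gal := galHM D m) (d := Cyclo.cycloOp hp D m) (y := y)
    (fun g f => Cyclo.cycloOp_commute hp D m g f) hy2 H.π I
    (fun g => LinearMap.trace T H.ρ.V (H.ρ.ρ g)) happrox g a b s hab hbs hfaith z hz h

/-- **C7.**  `H.ρ` is flat at `p` as soon as all torsion levels of `D` are groups of points of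
finite flat group schemes over `ℤ_(p)`. -/
theorem isFlatAt_of_isFFPoints [Finite (IsLocalRing.ResidueField 𝒪)]
    (hF : FrobPowerDense) (hp : p.Prime) (hp𝒪 : (p : 𝒪) ∈ IsLocalRing.maximalIdeal 𝒪)
    (hpS : p ∈ S) (hNS : ∀ q : ℕ, q.Prime → q ∣ N → q ∈ S)
    (H : CuspForm.HeckeGaloisRepDatum N (↑S : Set ℕ) 𝒪 θ T) (D : TorsionHeckeData p N S)
    (hFF : ∀ m, IsFFPoints p (D.M m) (fun σ x => D.gal m σ x)) :
    H.ρ.IsFlatAt p := by
  rw [isFlatAt_iff]
  refine ⟨finite_residueField H, fun I hfin => ?_⟩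
  by_cases hI : I = ⊤
  · haveI : Subsingleton (H.ρ.V ⧸ (I • (⊤ : Submodule T H.ρ.V))) := by
      rw [Submodule.Quotient.subsingleton_iff, hI, Submodule.top_smul]
    exact IsFFPoints.of_subsingleton
  · haveI := hfin
    exact isFFPoints_level hF hp hp𝒪 hpS hNS H D hFF I hI

end Fermat.Agent.S19x.C.FlatOfFF
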