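/-
P-S19 (S19 then S32), block (C): the CONVERSE of `HopfOrderFF.isFFPoints_of_funHopfOrder`
(helper1).

If `X` (with the `G_ℚ`-action `act`) is the group of `ℚ̄`-points of a finite flat commutative group
scheme over `ℤ_(ℓ)` (`S56x.Dict.FFPoints.IsFFPoints ℓ X act`, with Hopf algebra `A` and
`e : WithConv (A →ₐ ℚ̄) ≃ X`), then the image `H` of the Gelfand transform
`A → (X → ℚ̄)`, `a ↦ (x ↦ (e.symm x) a)` is a function-level Hopf order on `X`
(`Alg.FunOrder.IsFunHopfOrder H`) which is a finitely generated `ℤ_(ℓ)`-module, separates the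
points of `X` and consists of `G_ℚ`-equivariant functions.  No étaleness (Cartier) is needed.

Consequences: `X` is finite, every `act σ` is an additive bijection of `X`.

With this, the closure properties of `IsFFPoints` (subgroups, quotients) become statements about
subalgebras of functions: restriction to a stable subgroup `Y` is `H.map (pull Y.subtype)`, the
quotient by `Y` is `H.comap (pull (QuotientAddGroup.mk))`.
-/
import Mathlib
import Fermat.Prelude.Def_GaloisRep_Flat
import Fermat.Agent.S56x.Dict.FFPoints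
import Fermat.Agent.S56x.Fontaine.PointsRational
import Fermat.Agent.S19x.Alg.FunOrder
import Fermat.Agent.S19x.Alg.FunOrderAdjoin

set_option autoImplicit false
set_option linter.style.haveILetI false
set_option linter.unusedSectionVars false

noncomputable section

namespace Fermat.Agent.S19x.C.Gelfand

open Fermat.Agent.S56x.Dict.FFPoints Fermat.Agent.S19x.Alg.FunOrder WithConv

local notation "Γℚ" => (AlgebraicClosure ℚ ≃ₐ[ℚ] AlgebraicClosure ℚ)
local notation "Qb" => AlgebraicClosure ℚ
local notation "Zl" ℓ => GaloisRep.ratLocalizedAt ℓ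

variable {ℓ : ℕ} {X : Type} [AddCommGroup X] {act : Γℚ → X → X}

/-- `σ` as a `ℤ_(ℓ)`-algebra endomorphism of `ℚ̄`. -/
def galAlgHom (ℓ : ℕ) (σ : Γℚ) : Qb →ₐ[Zl ℓ] Qb := σ.toAlgHom.restrictScalars (Zl ℓ)

@[simp] lemma galAlgHom_apply (ℓ : ℕ) (σ : Γℚ) (x : Qb) : galAlgHom ℓ σ x = σ x := rfl

/-- The points of a finite flat group scheme form a finite set. -/
theorem finite_of_isFFPoints (h : IsFFPoints ℓ X act) : Finite X := by
  obtain ⟨A, i1, i2, hfin, -, -, e, -, -⟩ := h
  haveI : Finite (A →ₐ[Zl ℓ] Qb) := Fermat.Agent.S56x.Fontaine.PointsRational.finite_points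
  haveI : Finite (WithConv (A →ₐ[Zl ℓ] Qb)) :=
    Finite.of_injective WithConv.ofConv WithConv.ofConv_injective
  exact Finite.of_equiv _ e

/-- **The Gelfand transform of a finite flat Hopf algebra is a function-level Hopf order.** -/
theorem exists_funHopfOrder_of_isFFPoints (h : IsFFPoints ℓ X act) :
    ∃ H : Subalgebra (Zl ℓ) (X → Qb), IsFunHopfOrder H ∧ (Subalgebra.toSubmodule H).FG ∧
      Separates H ∧ ∀ f ∈ H, ∀ (σ : Γℚ) (x : X), f (act σ x) = σ (f x) := by
  haveI : Finite X := finite_of_isFFPoints h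
  obtain ⟨A, i1, i2, hfin, -, -, e, hadd, heq⟩ := h
  -- the Gelfand transform
  let gel : A →ₐ[Zl ℓ] (X → Qb) := AlgHom.pi fun t => (e.symm t).ofConv
  have gel_apply : ∀ a t, gel a t = (e.symm t).ofConv a := fun _ _ => rfl
  have hone : e 1 = 0 := by
    have := hadd 1 1
    rw [mul_one] at this
    exact (add_eq_left.mp this.symm)
  have hsymm_add : ∀ s t : X, e.symm (s + t) = e.symm s * e.symm t := by
    intro s t
    apply e.injective
    rw [hadd, Equiv.apply_symm_apply, Equiv.apply_symm_apply, Equiv.apply_symm_apply]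
  have hsymm_zero : e.symm 0 = 1 := by
    rw [← hone, Equiv.symm_apply_apply]
  have hdelta : IsDeltaClosed gel.range := by
    rw [isDeltaClosed_iff]
    rintro _ ⟨a, rfl⟩
    have key : (fun st : X × X => gel a (st.1 + st.2)) =
        ∑ i ∈ (Coalgebra.Repr.arbitrary (Zl ℓ) a).index,
          (fun st : X × X => gel ((Coalgebra.Repr.arbitrary (Zl ℓ) a).left i) st.1 *
            gel ((Coalgebra.Repr.arbitrary (Zl ℓ) a).right i) st.2) := by
      funext st
      rw [gel_apply, hsymm_add]
      show (e.symm st.1 * e.symm st.2) a = _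
      rw [AlgHom.convMul_apply, ← (Coalgebra.Repr.arbitrary (Zl ℓ) a).eq, map_sum,
        Finset.sum_apply]
      refine Finset.sum_congr rfl fun i _ => ?_
      rw [Algebra.TensorProduct.lift_tmul]
      rfl
    show (fun st : X × X => gel a (st.1 + st.2)) ∈ boxProd gel.range gel.range
    rw [key]
    refine Subalgebra.sum_mem _ fun i _ => ?_
    exact box_mem_boxProd ⟨_, rfl⟩ ⟨_, rfl⟩
  have hcounit : IsCounitClosed gel.range := by
    rw [isCounitClosed_iff]
    rintro _ ⟨a, rfl⟩
    refine ⟨Coalgebra.counit a, ?_⟩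
    show algebraMap (Zl ℓ) Qb (Coalgebra.counit a) = gel a 0
    rw [gel_apply, hsymm_zero]
    rfl
  refine ⟨gel.range, IsFunHopfOrder.of_delta_counit hdelta hcounit, ?_, ?_, ?_⟩
  · -- finiteness
    have : (Subalgebra.toSubmodule gel.range) = LinearMap.range gel.toLinearMap := rfl
    rw [this, LinearMap.range_eq_map]
    exact Submodule.FG.map _ hfin.fg_top
  · -- separation
    intro s t hst
    by_contra hcon
    apply hst
    apply e.symm.injective
    apply WithConv.ofConv_injective
    ext a
    by_contra hne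
    exact hcon ⟨gel a, ⟨a, rfl⟩, hne⟩
  · -- equivariance
    rintro _ ⟨a, rfl⟩ σ t
    let g : WithConv (A →ₐ[Zl ℓ] Qb) := toConv ((galAlgHom ℓ σ).comp (e.symm t).ofConv)
    have hg : e g = act σ (e (e.symm t)) := heq σ (e.symm t) g fun _ => rfl
    rw [Equiv.apply_symm_apply] at hg
    show gel a (act σ t) = σ (gel a t)
    rw [gel_apply, ← hg, Equiv.symm_apply_apply]
    rfl

/-! ### The action on the points is by additive bijections -/

theorem act_one (h : IsFFPoints ℓ X act) (x : X) : act 1 x = x := by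
  obtain ⟨A, i1, i2, -, -, -, e, -, heq⟩ := h
  have := heq 1 (e.symm x) (e.symm x) fun _ => rfl
  rw [Equiv.apply_symm_apply] at this
  exact this.symm

theorem act_mul (h : IsFFPoints ℓ X act) (σ τ : Γℚ) (x : X) :
    act (σ * τ) x = act σ (act τ x) := by
  obtain ⟨A, i1, i2, -, -, -, e, -, heq⟩ := h
  let f := e.symm x
  let g : WithConv (A →ₐ[Zl ℓ] Qb) := toConv ((galAlgHom ℓ τ).comp f.ofConv)
  let k : WithConv (A →ₐ[Zl ℓ] Qb) := toConv ((galAlgHom ℓ σ).comp g.ofConv)
  have h1 : e g = act τ (e f) := heq τ f g fun _ => rfl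
  have h2 : e k = act σ (e g) := heq σ g k fun _ => rfl
  have h3 : e k = act (σ * τ) (e f) := heq (σ * τ) f k fun _ => rfl
  have hx : e f = x := Equiv.apply_symm_apply e x
  rw [hx] at h1 h3
  rw [← h3, h2, h1]

theorem act_add (h : IsFFPoints ℓ X act) (σ : Γℚ) (s t : X) :
    act σ (s + t) = act σ s + act σ t := by
  obtain ⟨A, i1, i2, -, -, -, e, hadd, heq⟩ := h
  let f := e.symm s
  let g := e.symm t
  let f' : WithConv (A →ₐ[Zl ℓ] Qb) := toConv ((galAlgHom ℓ σ).comp f.ofConv)
  let g' : WithConv (A →ₐ[Zl ℓ] Qb) := toConv ((galAlgHom ℓ σ).comp g.ofConv)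
  have h1 : e f' = act σ (e f) := heq σ f f' fun _ => rfl
  have h2 : e g' = act σ (e g) := heq σ g g' fun _ => rfl
  have h3 : e (f' * g') = act σ (e (f * g)) := by
    refine heq σ (f * g) (f' * g') fun a => ?_
    have := congrArg (fun φ : A →ₐ[Zl ℓ] Qb => φ a)
      (AlgHom.comp_convMul_distrib (galAlgHom ℓ σ) f g)
    exact this.symm
  have hs : e f = s := Equiv.apply_symm_apply e s
  have ht : e g = t := Equiv.apply_symm_apply e t
  rw [hadd, hadd, h1, h2, hs, ht] at h3
  exact h3.symm

theorem act_zero (h : IsFFPoints ℓ X act) (σ : Γℚ) : act σ 0 = 0 := by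
  have := act_add h σ 0 0
  rw [add_zero] at this
  exact add_eq_left.mp this.symm

theorem act_bijective (h : IsFFPoints ℓ X act) (σ : Γℚ) : Function.Bijective (act σ) := by
  refine Function.bijective_iff_has_inverse.mpr ⟨act σ⁻¹, fun x => ?_, fun x => ?_⟩
  · rw [← act_mul h, inv_mul_cancel, act_one h]
  · rw [← act_mul h, mul_inv_cancel, act_one h]

/-- the action as a homomorphism to additive automorphisms. -/
theorem act_neg (h : IsFFPoints ℓ X act) (σ : Γℚ) (x : X) : act σ (-x) = -act σ x := by
  have := act_add h σ (-x) x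
  rw [neg_add_cancel, act_zero h] at this
  exact eq_neg_of_add_eq_zero_left this.symm

end Fermat.Agent.S19x.C.Gelfand

end
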