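import Mathlib
import Fermat.Agent.S19x.C.AnnSubQuot
import Fermat.Agent.S19x.C.HeckeMod
import Fermat.Agent.S19x.C.Gram
import Fermat.Agent.S56x.Fontaine.PointsRational

/-!
# P-S19 block C (S32 bridge), leaf C7b (helper55): one level

For a Hecke-Galois datum `H`, torsion data `D`, a level `m` and an ideal `I ≤ m_T` of finite index:
if `D.M m` (= `J₀(N)[p^m]`) is the group of points of a finite flat group scheme, if the Hecke
action on `D.M m` is faithful modulo `I` and the Eichler-Shimura/approximation relation holds at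
level `m` modulo `I`, then `V / I V` is the group of points of a finite flat group scheme.
-/

set_option autoImplicit false
set_option linter.unusedSectionVars false
set_option linter.style.haveILetI false

noncomputable section

namespace Fermat.Agent.S19x.C.LevelBridge

open Fermat.Agent.S56x.Dict.FFPoints Fermat.Agent.S19x.C.AnnCore Fermat.Agent.S19x.C.AnnCompare
  Fermat.Agent.S19x.C.SubQuot Fermat.Agent.S19x.C.HeckeMod Fermat.Agent.Gateway.S31Red
  Fermat.Agent.S19x.C.AnnSubQuot

local notation "Γℚ" => (AlgebraicClosure ℚ ≃ₐ[ℚ] AlgebraicClosure ℚ)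
local notation "Qb" => AlgebraicClosure ℚ

/-- A group of points of a finite flat group scheme is finite. -/
theorem finite_of_isFFPoints {p : ℕ} {X : Type} [AddCommGroup X] {act : Γℚ → X → X}
    (h : IsFFPoints p X act) : Finite X := by
  obtain ⟨H, i1, i2, hfin, -, -, e, -, -⟩ := h
  have h1 : Finite (H →ₐ[GaloisRep.ratLocalizedAt p] Qb) :=
    Fermat.Agent.S56x.Fontaine.PointsRational.finite_points
  have h2 : Finite (WithConv (H →ₐ[GaloisRep.ratLocalizedAt p] Qb)) :=
    Finite.of_injective WithConv.ofConv WithConv.ofConv_injective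
  exact Finite.of_equiv _ e

section VSide

variable {T : Type} [CommRing T] [IsLocalRing T] {TT : Type} [CommRing TT]
  (ρ : GaloisRepAdic T) (π : TT →+* T)

/-- `ρ` of a formal sum. -/
def rhoSum : (Γℚ →₀ TT) →+ Module.End T ρ.V :=
  Finsupp.liftAddHom fun k =>
    { toFun := fun t => π t • ρ.ρ k
      map_zero' := by rw [map_zero, zero_smul]
      map_add' := fun t t' => by rw [map_add, add_smul] }

@[simp] theorem rhoSum_single (k : Γℚ) (t : TT) :
    rhoSum ρ π (Finsupp.single k t) = π t • ρ.ρ k := by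
  simp [rhoSum]

theorem trace_rhoSum_mul (z : Γℚ →₀ TT) (h : Γℚ) :
    LinearMap.trace T ρ.V (rhoSum ρ π z * ρ.ρ h) =
      z.sum fun k t => π t * LinearMap.trace T ρ.V (ρ.ρ (k * h)) := by
  induction z using Finsupp.induction_linear with
  | zero => simp
  | add z w hz hw =>
    rw [map_add, add_mul, map_add, hz, hw, Finsupp.sum_add_index']
    · intro k; simp
    · intro k t t'; rw [map_add, add_mul]
  | single k t =>
    rw [rhoSum_single, Finsupp.sum_single_index (by simp), smul_mul_assoc, map_smul, smul_eq_mul,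
      map_mul ρ.ρ]

theorem levelAction_mk (I : Ideal T) (σ : Γℚ) (v : ρ.V) :
    ρ.levelAction I σ (Submodule.Quotient.mk v) = Submodule.Quotient.mk (ρ.ρ σ v) := rfl

end VSide

section Main

variable {p N : ℕ} [NeZero N] {S : Finset ℕ}
  {𝒪 : Type} [CommRing 𝒪] [IsDomain 𝒪] [IsDiscreteValuationRing 𝒪]
  [IsAdicComplete (IsLocalRing.maximalIdeal 𝒪) 𝒪]
  {θ : CuspForm.heckeAlgebra N 2 (↑S : Set ℕ) →+* IsLocalRing.ResidueField 𝒪}
  {T : Type} [CommRing T] [IsLocalRing T] [IsNoetherianRing T]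
  [IsAdicComplete (IsLocalRing.maximalIdeal T) T] [Algebra 𝒪 T] [IsLocalHom (algebraMap 𝒪 T)]
  [Module.Finite 𝒪 T] [Module.Free 𝒪 T]

/-- The residue character of the Hecke algebra. -/
def resChar (H : CuspForm.HeckeGaloisRepDatum N (↑S : Set ℕ) 𝒪 θ T) :
    CuspForm.heckeAlgebra N 2 (↑S : Set ℕ) →+* IsLocalRing.ResidueField T :=
  (IsLocalRing.residue T).comp H.π

/-- `V / I V`, to be seen as a module over the Hecke algebra through `π`. -/
def ZM (H : CuspForm.HeckeGaloisRepDatum N (↑S : Set ℕ) 𝒪 θ T) (I : Ideal T) : Type :=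
  H.ρ.V ⧸ (I • (⊤ : Submodule T H.ρ.V))

section ZMdefs

variable (H : CuspForm.HeckeGaloisRepDatum N (↑S : Set ℕ) 𝒪 θ T) (I : Ideal T)

instance : AddCommGroup (ZM H I) :=
  inferInstanceAs (AddCommGroup (H.ρ.V ⧸ (I • (⊤ : Submodule T H.ρ.V))))

instance instModuleTZM : Module T (ZM H I) :=
  inferInstanceAs (Module T (H.ρ.V ⧸ (I • (⊤ : Submodule T H.ρ.V))))

instance instModuleTTZM : Module (CuspForm.heckeAlgebra N 2 (↑S : Set ℕ)) (ZM H I) :=
  Module.compHom (ZM H I) H.π

theorem finite_ZM [Finite (T ⧸ I)] : Finite (ZM H I) := by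
  have : Module.Finite (T ⧸ I) (H.ρ.V ⧸ (I • (⊤ : Submodule T H.ρ.V))) := inferInstance
  show Finite (H.ρ.V ⧸ (I • (⊤ : Submodule T H.ρ.V)))
  exact Module.finite_of_finite (T ⧸ I)

/-- the class of a vector. -/
def mkZ : H.ρ.V →ₗ[T] ZM H I := Submodule.mkQ _

theorem mkZ_surjective : Function.Surjective (mkZ H I) := Submodule.mkQ_surjective _

theorem mkZ_eq_zero {v : H.ρ.V} : mkZ H I v = 0 ↔ v ∈ I • (⊤ : Submodule T H.ρ.V) :=
  Submodule.Quotient.mk_eq_zero _

theorem smulZ (t : CuspForm.heckeAlgebra N 2 (↑S : Set ℕ)) (v : ZM H I) : t • v = H.π t • v := rfl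

/-- the level action, as Hecke-linear endomorphisms. -/
def galZ : Γℚ →* Module.End (CuspForm.heckeAlgebra N 2 (↑S : Set ℕ)) (ZM H I) where
  toFun σ :=
    { toFun := fun v => H.ρ.levelAction I σ v
      map_add' := fun v v' => map_add (H.ρ.levelAction I σ) v v'
      map_smul' := fun t v => by
        rw [smulZ]
        exact map_smul (H.ρ.levelAction I σ) (H.π t) v }
  map_one' := by
    ext v
    obtain ⟨v, rfl⟩ := mkZ_surjective H I v
    show H.ρ.levelAction I 1 (Submodule.Quotient.mk v) = Submodule.Quotient.mk v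
    rw [levelAction_mk, map_one]; rfl
  map_mul' σ τ := by
    ext v
    obtain ⟨v, rfl⟩ := mkZ_surjective H I v
    show H.ρ.levelAction I (σ * τ) (Submodule.Quotient.mk v) =
      H.ρ.levelAction I σ (H.ρ.levelAction I τ (Submodule.Quotient.mk v))
    rw [levelAction_mk, levelAction_mk, levelAction_mk, map_mul]; rfl

theorem galZ_apply (σ : Γℚ) (v : ZM H I) : galZ H I σ v = H.ρ.levelAction I σ v := rfl

theorem galZ_mkZ (σ : Γℚ) (v : H.ρ.V) : galZ H I σ (mkZ H I v) = mkZ H I (H.ρ.ρ σ v) := rfl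

/-- `act galZ` is `rhoSum` modulo `I`. -/
theorem act_galZ_mkZ (z : Γℚ →₀ CuspForm.heckeAlgebra N 2 (↑S : Set ℕ)) (v : H.ρ.V) :
    act (galZ H I) z (mkZ H I v) = mkZ H I (rhoSum H.ρ H.π z v) := by
  induction z using Finsupp.induction_linear with
  | zero => simp
  | add z w hz hw =>
    rw [map_add, map_add, LinearMap.add_apply, LinearMap.add_apply, hz, hw, map_add]
  | single k t =>
    rw [act_single, rhoSum_single, LinearMap.smul_apply, LinearMap.smul_apply, smulZ, galZ_mkZ,
      map_smul]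

end ZMdefs

/-- **One level of the S32 bridge**, with the Nakayama projector and the Bezout relation as
hypotheses (`hproj`, `hbez`: leaf C6b). -/
theorem isFFPoints_level [Fact p.Prime] [Finite (IsLocalRing.ResidueField T)]
    (hC1 : OfAddSubgroupStatement p) (hC2 : OfQuotientStatement p)
    (H : CuspForm.HeckeGaloisRepDatum N (↑S : Set ℕ) 𝒪 θ T) (D : TorsionHeckeData p N S) (m : ℕ)
    (I : Ideal T) (hI : I ≤ IsLocalRing.maximalIdeal T) [Finite (T ⧸ I)]
    (hFF : IsFFPoints p (D.M m) (fun σ x => D.gal m σ x))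
    (d : Γℚ →* Module.End (CuspForm.heckeAlgebra N 2 (↑S : Set ℕ)) (HM D m))
    (hd : ∀ (g : Γℚ) (f : Module.End (CuspForm.heckeAlgebra N 2 (↑S : Set ℕ)) (HM D m)),
      Commute (d g) f)
    (happ : ∀ g : Γℚ, ∃ y : CuspForm.heckeAlgebra N 2 (↑S : Set ℕ),
      LinearMap.trace T H.ρ.V (H.ρ.ρ g) - H.π y ∈ I ∧
      algebraMap (CuspForm.heckeAlgebra N 2 (↑S : Set ℕ))
        (Module.End (CuspForm.heckeAlgebra N 2 (↑S : Set ℕ)) (HM D m)) y =
          galHM D m g + d g * galHM D m g⁻¹)
    (hfaith : ∀ t : CuspForm.heckeAlgebra N 2 (↑S : Set ℕ), D.hecke m t = 0 → H.π t ∈ I)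
    (hproj : ∀ nn : Ideal (CuspForm.heckeAlgebra N 2 (↑S : Set ℕ)),
      ∃ (s : CuspForm.heckeAlgebra N 2 (↑S : Set ℕ)) (k : ℕ), s - 1 ∈ nn ∧
        ∀ t ∈ nn ^ k, ∀ w : HM D m, (t * s) • w = 0)
    (hbez : ∀ (δ : CuspForm.heckeAlgebra N 2 (↑S : Set ℕ)), resChar H δ ≠ 0 → ∀ k : ℕ,
      ∃ a b : CuspForm.heckeAlgebra N 2 (↑S : Set ℕ),
        a * δ + b = 1 ∧ b ∈ (RingHom.ker (resChar H)) ^ k) :
    IsFFPoints p (H.ρ.V ⧸ (I • (⊤ : Submodule T H.ρ.V))) (fun σ => H.ρ.levelAction I σ) := by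
  classical
  have hfinW : Finite (HM D m) := finite_of_isFFPoints hFF
  have hfinZ : Finite (ZM H I) := finite_ZM H I
  -- the projector
  obtain ⟨s, k, hs1, hsk⟩ := hproj (RingHom.ker (resChar H))
  have hπs : IsUnit (H.π s) := by
    have h1 : H.π (s - 1) ∈ IsLocalRing.maximalIdeal T := by
      have := RingHom.mem_ker.mp hs1
      rwa [resChar, RingHom.comp_apply, IsLocalRing.residue_eq_zero_iff] at this
    have h2 : H.π s = 1 + H.π (s - 1) := by rw [map_sub, map_one]; ring
    rw [h2]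
    by_contra hcon
    have h3 : (1 : T) + H.π (s - 1) ∈ IsLocalRing.maximalIdeal T :=
      (IsLocalRing.mem_maximalIdeal _).mpr hcon
    have h4 : (1 : T) ∈ IsLocalRing.maximalIdeal T := by
      have := Ideal.sub_mem _ h3 h1
      rwa [add_sub_cancel_right] at this
    exact (Ideal.ne_top_iff_one _).mp (IsLocalRing.maximalIdeal.isMaximal T).ne_top h4
  -- the approximating Hecke operators
  choose y hytr hyrel using happ
  -- the Gram data
  obtain ⟨g, hgunit, -, hgmem⟩ := Fermat.Agent.S19x.C.Gram.exists_gram H.ρ H.residual_absIrr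
  set δ : CuspForm.heckeAlgebra N 2 (↑S : Set ℕ) :=
    Matrix.det (Matrix.of fun i j => y (g i * g j)) with hδ
  have hδres : resChar H δ ≠ 0 := by
    rw [resChar, RingHom.comp_apply, Ne, IsLocalRing.residue_eq_zero_iff]
    -- `π δ` is congruent to the Gram determinant modulo `I`
    have hcong : Matrix.det (Matrix.of fun i j : Fin 4 =>
        LinearMap.trace T H.ρ.V (H.ρ.ρ (g i * g j))) - H.π δ ∈ I := by
      have hq : (Ideal.Quotient.mk I) (Matrix.det (Matrix.of fun i j : Fin 4 =>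
          LinearMap.trace T H.ρ.V (H.ρ.ρ (g i * g j)))) =
          (Ideal.Quotient.mk I) (H.π δ) := by
        rw [hδ, RingHom.map_det, RingHom.map_det, RingHom.map_det]
        congr 1
        ext i j
        simp only [RingHom.mapMatrix_apply, Matrix.map_apply, Matrix.of_apply]
        exact Ideal.Quotient.eq.mpr (hytr (g i * g j))
      exact Ideal.Quotient.eq.mp hq
    intro hmem
    have : Matrix.det (Matrix.of fun i j : Fin 4 =>
        LinearMap.trace T H.ρ.V (H.ρ.ρ (g i * g j))) ∈ IsLocalRing.maximalIdeal T := by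
      have := Ideal.add_mem _ (hI hcong) hmem
      rwa [sub_add_cancel] at this
    exact (IsLocalRing.mem_maximalIdeal _).mp this hgunit
  obtain ⟨a, b, hab, hbk⟩ := hbez δ hδres k
  -- the annihilator inclusion
  refine isFFPoints_of_annihilator_le (W := HM D m) (Z := ZM H I) hC1 hC2 (galHM D m) (galZ H I) s
    ?_ hFF
  intro z hz
  have htr : ∀ h : Γℚ, (z.sum fun k t => H.π t * LinearMap.trace T H.ρ.V (H.ρ.ρ (k * h))) ∈ I := by
    intro h
    refine sum_trace_mem (M := HM D m) hd hyrel H.π I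
      (fun g => LinearMap.trace T H.ρ.V (H.ρ.ρ g)) hytr g a b s hab ?_ ?_ z hz h
    · intro w
      exact hsk b hbk w
    · intro t ht
      have h0 : D.hecke m (s * t) = 0 := by
        ext w
        exact ht w
      have h1 := hfaith _ h0
      rw [map_mul] at h1
      obtain ⟨u, hu⟩ := hπs
      have : H.π t = ↑u⁻¹ * (H.π s * H.π t) := by
        rw [← hu, ← mul_assoc, Units.inv_mul, one_mul]
      rw [this]
      exact Ideal.mul_mem_left _ _ h1
  -- conclusion through the Gram basis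
  have hmem : ∀ v : H.ρ.V, rhoSum H.ρ H.π z v ∈ I • (⊤ : Submodule T H.ρ.V) := by
    refine hgmem I (rhoSum H.ρ H.π z) fun i => ?_
    rw [trace_rhoSum_mul]
    exact htr (g i)
  ext v
  obtain ⟨v, rfl⟩ := mkZ_surjective H I v
  rw [act_galZ_mkZ, LinearMap.zero_apply]
  exact (mkZ_eq_zero H I).mpr (hmem v)

end Main

end Fermat.Agent.S19x.C.LevelBridge
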