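/-
P-S19 stage 2 (S32 bridge), BLOCK C, interface-free pieces for leaf C4/C6 (board key `S19_C_PLAN`).

* `exists_primary_elt` : NAKAYAMA CHOICE OF `s, k`.  For a commutative ring `𝕋` acting on a finite
  abelian group `W` through `hecke : 𝕋 →+* AddMonoid.End W` and an ideal `𝔫`, there are `s` with
  `s - 1 ∈ 𝔫` and `k` such that `𝔫 ^ k * s` kills `W` (so `s W` is the `𝔫`-primary part of `W`).
* `eq_zero_of_hecke_apply_eq_zero` : if `𝔫` is maximal, `δ ∉ 𝔫`, then an element `u = s w` of the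
  primary part with `δ u = 0` vanishes.
* `det_rank_two_eq_zero` : a `4 × 4` matrix of the form `u uᵀ' + v vᵀ'` over a commutative ring has
  determinant zero.
-/
import Mathlib

set_option autoImplicit false

namespace Fermat.Agent.S19x.C.Primary

section Nakayama

variable {𝕋 : Type*} [CommRing 𝕋] {W : Type*} [AddCommGroup W]

/-- **Nakayama choice of `s, k`.** -/
theorem exists_primary_elt [Finite W] (hecke : 𝕋 →+* AddMonoid.End W) (𝔫 : Ideal 𝕋) :
    ∃ s : 𝕋, s - 1 ∈ 𝔫 ∧ ∃ k : ℕ, ∀ t ∈ 𝔫 ^ k, ∀ w : W, hecke (t * s) w = 0 := by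
  let _ : Module 𝕋 W := Module.compHom W hecke
  have hsmul : ∀ (t : 𝕋) (w : W), t • w = hecke t w := fun _ _ => rfl
  -- the chain `𝔫 ^ j • ⊤` stabilises
  let f : ℕ →o (Submodule 𝕋 W)ᵒᵈ :=
    { toFun := fun j => OrderDual.toDual (𝔫 ^ j • (⊤ : Submodule 𝕋 W))
      monotone' := fun i j hij => by
        show 𝔫 ^ j • (⊤ : Submodule 𝕋 W) ≤ 𝔫 ^ i • (⊤ : Submodule 𝕋 W)
        exact Submodule.smul_mono_left (Ideal.pow_le_pow_right hij) }
  obtain ⟨k, hk⟩ := IsArtinian.monotone_stabilizes f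
  have hk1 : 𝔫 ^ k • (⊤ : Submodule 𝕋 W) = 𝔫 ^ (k + 1) • (⊤ : Submodule 𝕋 W) :=
    congrArg OrderDual.ofDual (hk (k + 1) (Nat.le_succ k))
  set Nk : Submodule 𝕋 W := 𝔫 ^ k • (⊤ : Submodule 𝕋 W) with hNk
  have hle : Nk ≤ 𝔫 • Nk := by
    rw [hNk, ← Submodule.mul_smul, ← pow_succ', ← hk1]
  have hfg : Nk.FG := Submodule.FG.of_finite
  obtain ⟨s, hs1, hs⟩ := Submodule.exists_sub_one_mem_and_smul_eq_zero_of_fg_of_le_smul 𝔫 Nk hfg hle
  refine ⟨s, hs1, k, fun t ht w => ?_⟩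
  rw [← hsmul, mul_comm, mul_smul]
  exact hs _ (Submodule.smul_mem_smul ht Submodule.mem_top)

/-- An element of the `𝔫`-primary part killed by some `δ ∉ 𝔫` vanishes. -/
theorem eq_zero_of_hecke_apply_eq_zero (hecke : 𝕋 →+* AddMonoid.End W) (𝔫 : Ideal 𝕋)
    [𝔫.IsMaximal] (s : 𝕋) (k : ℕ) (hk : ∀ t ∈ 𝔫 ^ k, ∀ w : W, hecke (t * s) w = 0)
    (δ : 𝕋) (hδ : δ ∉ 𝔫) (w : W) (hδu : hecke δ (hecke s w) = 0) : hecke s w = 0 := by
  have hsup : Ideal.span {δ} ⊔ 𝔫 = ⊤ := by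
    obtain ⟨y, i, hi, hyi⟩ := Ideal.IsMaximal.exists_inv (inferInstance : 𝔫.IsMaximal) hδ
    rw [Ideal.eq_top_iff_one, ← hyi]
    exact Submodule.add_mem_sup (Ideal.mem_span_singleton'.mpr ⟨y, rfl⟩) hi
  have hsupk : Ideal.span {δ} ⊔ 𝔫 ^ k = ⊤ := Ideal.sup_pow_eq_top hsup
  have h1 : (1 : 𝕋) ∈ Ideal.span {δ} ⊔ 𝔫 ^ k := by rw [hsupk]; trivial
  obtain ⟨x, hx, t, ht, hxt⟩ := Submodule.mem_sup.mp h1
  obtain ⟨a, rfl⟩ := Ideal.mem_span_singleton'.mp hx
  have h2 : hecke s w = hecke (a * δ + t) (hecke s w) := by rw [hxt, map_one]; rfl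
  have h3 : hecke (a * δ + t) (hecke s w) = hecke a (hecke δ (hecke s w)) + hecke (t * s) w := by
    rw [map_add, map_mul, map_mul]; rfl
  rw [h2, h3, hδu, map_zero, zero_add]
  exact hk t ht w

end Nakayama

section RankTwo

variable {R : Type*} [CommRing R]

/-- A `4 × 4` matrix of rank at most two has determinant zero. -/
theorem det_rank_two_eq_zero (u u' v v' : Fin 4 → R) :
    (Matrix.of fun i j : Fin 4 => u i * u' j + v i * v' j).det = 0 := by
  let A : Matrix (Fin 4) (Fin 4) R :=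
    Matrix.of fun i j => if j = 0 then u i else if j = 1 then v i else 0
  let B : Matrix (Fin 4) (Fin 4) R :=
    Matrix.of fun i j => if i = 0 then u' j else if i = 1 then v' j else 0
  have hAB : (Matrix.of fun i j : Fin 4 => u i * u' j + v i * v' j) = A * B := by
    ext i j
    simp [A, B, Matrix.mul_apply, Fin.sum_univ_four]
  have hA : A.det = 0 := by
    refine Matrix.det_eq_zero_of_column_eq_zero 2 fun i => ?_
    simp [A]
  rw [hAB, Matrix.det_mul, hA, zero_mul]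

end RankTwo

end Fermat.Agent.S19x.C.Primary
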