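import Mathlib
import Fermat.Agent.S19x.C.LevelBridge
import Fermat.Agent.S19x.FFSub
import Fermat.Agent.Gateway.S31.Approx

/-!
# P-S19 block C (S32 bridge), leaf C7c (helper55): flatness of a Hecke-Galois datum from flatness
of the torsion of `J₀(N)`

`isFlatAt_of_torsion` : for a Hecke-Galois datum `H` (`p ∈ S`, primes of `N` in `S`,
`p ∈ m_𝒪`, finite residue field) and torsion data `D : TorsionHeckeData p N S` all of whose levels
are groups of points of finite flat group schemes over `ℤ_(p)`, the representation `H.ρ` is flat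
at `p`.  Inputs still taken as hypotheses in this file: the quotient closure C2
(`OfQuotientStatement p`), the cyclotomic operator package C6a (`CycloStatement`) and the
Nakayama/Bezout package C6b (`ProjStatement`, `BezoutStatement`).
-/

set_option autoImplicit false
set_option linter.unusedSectionVars false
set_option linter.style.haveILetI false

noncomputable section

namespace Fermat.Agent.S19x.C.S32Bridge

open Fermat.Agent.S56x.Dict.FFPoints Fermat.Agent.S19x.C.SubQuot Fermat.Agent.S19x.C.HeckeMod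
  Fermat.Agent.Gateway.S31Red Fermat.Agent.S19x.C.LevelBridge

local notation "Γℚ" => (AlgebraicClosure ℚ ≃ₐ[ℚ] AlgebraicClosure ℚ)

section Algebra

variable {T : Type*} [CommRing T] [IsLocalRing T] [IsNoetherianRing T]

/-- An ideal of finite index in a noetherian local ring contains a power of the maximal ideal. -/
theorem exists_pow_maximalIdeal_le (I : Ideal T) [Finite (T ⧸ I)] :
    ∃ n : ℕ, IsLocalRing.maximalIdeal T ^ n ≤ I := by
  refine Ideal.exists_pow_le_of_le_radical_of_fg ?_ (IsNoetherian.noetherian _)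
  intro x hx
  -- two powers of `x` agree modulo `I`
  obtain ⟨a, b, hab, heq⟩ := Finite.exists_ne_map_eq_of_infinite
    (fun n : ℕ => (Ideal.Quotient.mk I) (x ^ n))
  wlog hlt : a < b generalizing a b
  · exact this b a hab.symm heq.symm (lt_of_le_of_ne (not_lt.mp hlt) hab.symm)
  refine ⟨a, ?_⟩
  have h1 : x ^ a - x ^ b ∈ I := Ideal.Quotient.eq.mp heq
  have h2 : x ^ a - x ^ b = x ^ a * (1 - x ^ (b - a)) := by
    rw [mul_sub, mul_one, ← pow_add, Nat.add_sub_cancel' hlt.le]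
  have h3 : IsUnit (1 - x ^ (b - a)) := by
    by_contra hcon
    have h4 : 1 - x ^ (b - a) ∈ IsLocalRing.maximalIdeal T :=
      (IsLocalRing.mem_maximalIdeal _).mpr hcon
    have h5 : x ^ (b - a) ∈ IsLocalRing.maximalIdeal T :=
      Ideal.pow_mem_of_mem _ hx _ (Nat.sub_pos_of_lt hlt)
    have h6 : (1 : T) ∈ IsLocalRing.maximalIdeal T := by
      have := Ideal.add_mem _ h4 h5
      rwa [sub_add_cancel] at this
    exact (Ideal.ne_top_iff_one _).mp (IsLocalRing.maximalIdeal.isMaximal T).ne_top h6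
  rw [h2] at h1
  obtain ⟨u, hu⟩ := h3
  have : x ^ a = x ^ a * (1 - x ^ (b - a)) * ↑u⁻¹ := by
    rw [mul_assoc, ← hu, Units.mul_inv, mul_one]
  rw [this]
  exact Ideal.mul_mem_right _ _ h1

end Algebra

variable {p N : ℕ} [NeZero N] {S : Finset ℕ}
  {𝒪 : Type} [CommRing 𝒪] [IsDomain 𝒪] [IsDiscreteValuationRing 𝒪]
  [IsAdicComplete (IsLocalRing.maximalIdeal 𝒪) 𝒪]
  {θ : CuspForm.heckeAlgebra N 2 (↑S : Set ℕ) →+* IsLocalRing.ResidueField 𝒪}
  {T : Type} [CommRing T] [IsLocalRing T] [IsNoetherianRing T]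
  [IsAdicComplete (IsLocalRing.maximalIdeal T) T] [Algebra 𝒪 T] [IsLocalHom (algebraMap 𝒪 T)]
  [Module.Finite 𝒪 T] [Module.Free 𝒪 T]

/-- The residue field of `T` is finite. -/
theorem finite_residueField [Finite (IsLocalRing.ResidueField 𝒪)]
    (H : CuspForm.HeckeGaloisRepDatum N (↑S : Set ℕ) 𝒪 θ T) :
    Finite (IsLocalRing.ResidueField T) := by
  have hsurj : Function.Surjective (IsLocalRing.ResidueField.map (algebraMap 𝒪 T)) := by
    intro x
    obtain ⟨a, ha⟩ := H.residue_surjective x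
    exact ⟨IsLocalRing.residue 𝒪 a, by rw [IsLocalRing.ResidueField.map_residue]; exact ha⟩
  exact Finite.of_surjective _ hsurj

/-- Leaf C6a as a `Prop`: the cyclotomic operator at level `m` and the approximation relation. -/
def CycloStatement (H : CuspForm.HeckeGaloisRepDatum N (↑S : Set ℕ) 𝒪 θ T)
    (D : TorsionHeckeData p N S) : Prop :=
  ∀ m : ℕ, ∃ d : Γℚ →* Module.End (CuspForm.heckeAlgebra N 2 (↑S : Set ℕ)) (HM D m),
    (∀ (g : Γℚ) (f : Module.End (CuspForm.heckeAlgebra N 2 (↑S : Set ℕ)) (HM D m)),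
      Commute (d g) f) ∧
    ∀ g : Γℚ, ∃ y : CuspForm.heckeAlgebra N 2 (↑S : Set ℕ),
      LinearMap.trace T H.ρ.V (H.ρ.ρ g) - H.π y ∈ IsLocalRing.maximalIdeal T ^ m ∧
      algebraMap (CuspForm.heckeAlgebra N 2 (↑S : Set ℕ))
        (Module.End (CuspForm.heckeAlgebra N 2 (↑S : Set ℕ)) (HM D m)) y =
          galHM D m g + d g * galHM D m g⁻¹

/-- Leaf C6b (projector) as a `Prop`. -/
def ProjStatement (D : TorsionHeckeData p N S) : Prop :=
  ∀ (m : ℕ), Finite (HM D m) → ∀ nn : Ideal (CuspForm.heckeAlgebra N 2 (↑S : Set ℕ)),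
    ∃ (s : CuspForm.heckeAlgebra N 2 (↑S : Set ℕ)) (k : ℕ), s - 1 ∈ nn ∧
      ∀ t ∈ nn ^ k, ∀ w : HM D m, (t * s) • w = 0

/-- Leaf C6b (Bezout) as a `Prop`. -/
def BezoutStatement (H : CuspForm.HeckeGaloisRepDatum N (↑S : Set ℕ) 𝒪 θ T) : Prop :=
  ∀ (δ : CuspForm.heckeAlgebra N 2 (↑S : Set ℕ)), resChar H δ ≠ 0 → ∀ k : ℕ,
    ∃ a b : CuspForm.heckeAlgebra N 2 (↑S : Set ℕ),
      a * δ + b = 1 ∧ b ∈ (RingHom.ker (resChar H)) ^ k

/-- **The S32 bridge.** -/
theorem isFlatAt_of_torsion [Finite (IsLocalRing.ResidueField 𝒪)]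
    (hp : p.Prime) (hp𝒪 : (p : 𝒪) ∈ IsLocalRing.maximalIdeal 𝒪)
    (H : CuspForm.HeckeGaloisRepDatum N (↑S : Set ℕ) 𝒪 θ T) (D : TorsionHeckeData p N S)
    (hFF : ∀ m, IsFFPoints p (D.M m) (fun σ x => D.gal m σ x))
    (hC2 : haveI : Fact p.Prime := ⟨hp⟩; OfQuotientStatement p)
    (hcyc : CycloStatement H D) (hproj : ProjStatement D) (hbez : BezoutStatement H) :
    H.ρ.IsFlatAt p := by
  classical
  haveI : Fact p.Prime := ⟨hp⟩
  have hfinT : Finite (IsLocalRing.ResidueField T) := finite_residueField H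
  have hC1 : OfAddSubgroupStatement p := fun {X} _ {act} h Y hY =>
    Fermat.Agent.S19x.FFSub.isFFPoints_of_addSubgroup h Y hY
  rw [isFlatAt_iff]
  refine ⟨hfinT, fun I hfinI => ?_⟩
  by_cases hI : I = ⊤
  · subst hI
    have : Subsingleton (H.ρ.V ⧸ ((⊤ : Ideal T) • (⊤ : Submodule T H.ρ.V))) := by
      rw [Submodule.top_smul]
      exact Submodule.Quotient.subsingleton_iff.mpr rfl
    exact IsFFPoints.of_subsingleton
  · have hIm : I ≤ IsLocalRing.maximalIdeal T := IsLocalRing.le_maximalIdeal hI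
    obtain ⟨n, hn⟩ := exists_pow_maximalIdeal_le I
    obtain ⟨c0, hc0⟩ := D.faithful
    set m := n + c0 with hm
    obtain ⟨d, hd, happ⟩ := hcyc m
    have hpT : (p : T) ∈ IsLocalRing.maximalIdeal T := by
      rw [IsLocalRing.mem_maximalIdeal]
      intro hu
      have h1 : (p : T) = algebraMap 𝒪 T (p : 𝒪) := by rw [map_natCast]
      rw [h1] at hu
      exact (IsLocalRing.mem_maximalIdeal _).mp hp𝒪 (isUnit_of_map_unit (algebraMap 𝒪 T) _ hu)
    refine isFFPoints_level hC1 hC2 H D m I hIm (hFF m) d hd ?_ ?_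
      (hproj m (finite_of_isFFPoints (hFF m))) hbez
    · intro g
      obtain ⟨y, hy1, hy2⟩ := happ g
      exact ⟨y, hn (Ideal.pow_le_pow_right (Nat.le_add_right n c0) hy1), hy2⟩
    · intro t ht
      obtain ⟨t', rfl⟩ := hc0 t n ht
      have h2 : H.π (((p : ℤ) ^ n) • t') = (p : T) ^ n * H.π t' := by
        simp only [zsmul_eq_mul, map_mul, Int.cast_pow, Int.cast_natCast, map_pow, map_natCast]
      rw [h2]
      exact hn (Ideal.mul_mem_right _ _ (Ideal.pow_mem_pow hpT n))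

end Fermat.Agent.S19x.C.S32Bridge
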