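/-
P-S19 (S19 then S32), BLOCK C (architect helper55), leaf C5 closed (helper16): the subquotient
packaging `of_subquotient` of `S19x/C/SubQuot.lean` with BOTH leaves discharged:
C1 (subgroups, helper87's `S19x/FFSub.lean`, via `S19x/C/SubQuot2.lean`) and
C2 (quotients, `S19x/FF/OfQuotient.lean`).
-/
import Mathlib
import Fermat.Agent.S56x.Dict.FFPoints
import Fermat.Agent.S19x.C.SubQuot2
import Fermat.Agent.S19x.FF.OfQuotient

set_option autoImplicit false

noncomputable section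

namespace Fermat.Agent.S19x.C.SubQuotFull

open Fermat.Agent.S56x.Dict.FFPoints Fermat.Agent.S19x.C.SubQuot Fermat.Agent.S19x.C.SubQuot2

local notation "Γℚ" => (AlgebraicClosure ℚ ≃ₐ[ℚ] AlgebraicClosure ℚ)

/-- Leaf C2 holds (`S19x/FF/OfQuotient.of_quotient`). -/
theorem ofQuotientStatement (p : ℕ) [Fact p.Prime] : OfQuotientStatement p := by
  intro X _ act h Y hY actQ hQ
  exact Fermat.Agent.S19x.FF.OfQuotient.of_quotient h Y hY actQ hQ

universe u

variable {p : ℕ} {X Z : Type} {A : Type u} [AddCommGroup X] [AddCommGroup Z] [AddCommGroup A]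
  {actX : Γℚ → X → X} {actZ : Γℚ → Z → Z} {actA : Γℚ → A → A}

/-- **(C5) Subquotients, unconditional.**  If `Ψ : A →+ X` and `Φ : A →+ Z` are `G_ℚ`-equivariant,
`Φ` is onto and `ker Ψ ≤ ker Φ`, then `Z` (`≃ range Ψ ⧸ Ψ (ker Φ)`) is the group of points of a
finite flat group scheme over `ℤ_(p)` if `X` is. -/
theorem of_subquotient_full [Fact p.Prime]
    (hX : IsFFPoints p X actX) (Ψ : A →+ X) (Φ : A →+ Z)
    (hΨ : ∀ σ a, Ψ (actA σ a) = actX σ (Ψ a)) (hΦ : ∀ σ a, Φ (actA σ a) = actZ σ (Φ a))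
    (hsurj : Function.Surjective Φ) (hker : ∀ a, Ψ a = 0 → Φ a = 0) :
    IsFFPoints p Z actZ :=
  of_subquotient_of_quotient (ofQuotientStatement p) hX Ψ Φ hΨ hΦ hsurj hker

end Fermat.Agent.S19x.C.SubQuotFull
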