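/-
P-S19 block C (helper76): transport of the frozen S19 conclusion to the torsion types used by the
S31 interface: `IsFFPoints ℓ (JTors N (ℓ ^ k)) (galTors N (ℓ ^ k))`.
-/
import Mathlib
import Fermat.Agent.Gateway.S31.FromExport
import Fermat.Agent.S56x.Dict.FFPoints

set_option autoImplicit false

noncomputable section

namespace Fermat.Agent.S19x.C.TorsTransport

open ModularCurve AlgebraicCurve Fermat.Agent.Gateway.S31Red Fermat.Agent.S56x.Dict.FFPoints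

local notation "Qb" => AlgebraicClosure ℚ
local notation "Γℚ" => (AlgebraicClosure ℚ ≃ₐ[ℚ] AlgebraicClosure ℚ)

/-- The conclusion of the frozen statement S19 for the level `N`, the prime `ℓ` and the
exponent `k`, verbatim. -/
def S19Conclusion (N : ℕ) (ℓ : ℕ) (k : ℕ) : Prop :=
  ∃ (H : Type) (_ : CommRing H) (_ : HopfAlgebra (GaloisRep.ratLocalizedAt ℓ) H),
    Module.Finite (GaloisRep.ratLocalizedAt ℓ) H ∧ Module.Flat (GaloisRep.ratLocalizedAt ℓ) H ∧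
    Coalgebra.IsCocomm (GaloisRep.ratLocalizedAt ℓ) H ∧
    ∃ e : WithConv (H →ₐ[GaloisRep.ratLocalizedAt ℓ] AlgebraicClosure ℚ) ≃
        ↥(Submodule.torsionBy ℤ (JZero N) ((ℓ : ℤ) ^ k)),
      (∀ f g, e (f * g) = e f + e g) ∧
      ∀ (σ : AlgebraicClosure ℚ ≃ₐ[ℚ] AlgebraicClosure ℚ)
        (f g : WithConv (H →ₐ[GaloisRep.ratLocalizedAt ℓ] AlgebraicClosure ℚ)),
        (∀ h : H, g h = σ (f h)) → ((e g : JZero N)) = σ • (e f : JZero N)

/-- the Galois action on `torsionBy ℤ (JZero N) (ℓ ^ k)` -/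
def torsAct (N : ℕ) (ℓ k : ℕ) (σ : Γℚ)
    (x : ↥(Submodule.torsionBy ℤ (JZero N) ((ℓ : ℤ) ^ k))) :
    ↥(Submodule.torsionBy ℤ (JZero N) ((ℓ : ℤ) ^ k)) :=
  ⟨σ • (x : JZero N), by
    have hx := (Submodule.mem_torsionBy_iff _ _).mp x.2
    rw [Submodule.mem_torsionBy_iff]
    have h2 : ((ℓ : ℤ) ^ k) • (σ • (x : JZero N)) = σ • (((ℓ : ℤ) ^ k) • (x : JZero N)) :=
      ((DistribSMul.toAddMonoidHom (JZero N) σ).map_zsmul _ _).symm
    rw [h2, hx, smul_zero]⟩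

theorem isFFPoints_torsionBy {N ℓ k : ℕ} (h : S19Conclusion N ℓ k) :
    IsFFPoints ℓ ↥(Submodule.torsionBy ℤ (JZero N) ((ℓ : ℤ) ^ k)) (torsAct N ℓ k) := by
  obtain ⟨H, i1, i2, hfin, hflat, hco, e, hadd, heq⟩ := h
  exact ⟨H, i1, i2, hfin, hflat, hco, e, hadd, fun σ f g hfg =>
    Subtype.ext (heq σ f g hfg)⟩

/-- the identification of the two torsion types -/
def torsEquiv (N ℓ k : ℕ) :
    ↥(Submodule.torsionBy ℤ (JZero N) ((ℓ : ℤ) ^ k)) ≃+ JTors N (ℓ ^ k) where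
  toFun x := ⟨(x : JZero N), by
    have hx := (Submodule.mem_torsionBy_iff _ _).mp x.2
    refine Pic0.mem_torsion.mpr ?_
    rw [Nat.cast_pow]; exact hx⟩
  invFun x := ⟨(x : JZero N), by
    have hx := Pic0.mem_torsion.mp x.2
    rw [Nat.cast_pow] at hx
    exact (Submodule.mem_torsionBy_iff _ _).mpr hx⟩
  left_inv x := rfl
  right_inv x := rfl
  map_add' x y := rfl

theorem isFFPoints_jTors {N ℓ k : ℕ} (h : S19Conclusion N ℓ k) :
    IsFFPoints ℓ (JTors N (ℓ ^ k)) (fun σ x => galTors N (ℓ ^ k) σ x) :=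
  (isFFPoints_torsionBy h).transport (torsEquiv N ℓ k) (fun _ _ => rfl)

end Fermat.Agent.S19x.C.TorsTransport
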