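import Mathlib
import Fermat.Agent.S19x.C.S32Bridge
import Fermat.Agent.S19x.C.Cyclo
import Fermat.Agent.S19x.C.Nakayama
import Fermat.Agent.S19x.C.SubQuotFull
import Fermat.Agent.S19x.C.TorsTransport
import Fermat.Agent.Gateway.Export.C0Good

/-!
# P-S19 block C, leaf C7 (helper55): S32 from the conclusion of S19

* `isFlatAt_of_torsionData` : `S32Bridge.isFlatAt_of_torsion` with the leaves C2 (helper16),
  C6a (helper71), C6b (helper34) discharged: for ANY torsion data `D : TorsionHeckeData p N S`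
  whose levels are groups of points of finite flat group schemes, `H.ρ` is flat at `p`;
* `s32_of_s19` : the frozen statement S32 (same hypotheses; `hp2`, `hpN` are not used here: they
  are needed to PROVE the hypothesis `hS19`) from the conclusion of S19 at the level `N` for the
  prime `p` and all exponents.
-/

set_option autoImplicit false
set_option linter.unusedSectionVars false
set_option linter.style.haveILetI false

namespace Fermat.Agent.S19x.C.S32Final

open Fermat.Agent.S56x.Dict.FFPoints Fermat.Agent.S19x.C.SubQuot Fermat.Agent.S19x.C.HeckeMod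
  Fermat.Agent.Gateway.S31Red Fermat.Agent.S19x.C.LevelBridge Fermat.Agent.S19x.C.S32Bridge

local notation "Γℚ" => (AlgebraicClosure ℚ ≃ₐ[ℚ] AlgebraicClosure ℚ)

variable {p N : ℕ} [NeZero N] {S : Finset ℕ}
  {𝒪 : Type} [CommRing 𝒪] [IsDomain 𝒪] [IsDiscreteValuationRing 𝒪]
  [IsAdicComplete (IsLocalRing.maximalIdeal 𝒪) 𝒪]
  {θ : CuspForm.heckeAlgebra N 2 (↑S : Set ℕ) →+* IsLocalRing.ResidueField 𝒪}
  {T : Type} [CommRing T] [IsLocalRing T] [IsNoetherianRing T]
  [IsAdicComplete (IsLocalRing.maximalIdeal T) T] [Algebra 𝒪 T] [IsLocalHom (algebraMap 𝒪 T)]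
  [Module.Finite 𝒪 T] [Module.Free 𝒪 T]

/-- **The S32 bridge, unconditional form.** -/
theorem isFlatAt_of_torsionData [Finite (IsLocalRing.ResidueField 𝒪)]
    (hF : FrobPowerDense) (hp : p.Prime) (hp𝒪 : (p : 𝒪) ∈ IsLocalRing.maximalIdeal 𝒪)
    (hpS : p ∈ S) (hNS : ∀ q : ℕ, q.Prime → q ∣ N → q ∈ S)
    (H : CuspForm.HeckeGaloisRepDatum N (↑S : Set ℕ) 𝒪 θ T) (D : TorsionHeckeData p N S)
    (hFF : ∀ m, IsFFPoints p (D.M m) (fun σ x => D.gal m σ x)) :
    H.ρ.IsFlatAt p := by
  haveI : Fact p.Prime := ⟨hp⟩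
  have hfinT : Finite (IsLocalRing.ResidueField T) := finite_residueField H
  refine isFlatAt_of_torsion hp hp𝒪 H D hFF
    (Fermat.Agent.S19x.C.SubQuotFull.ofQuotientStatement p) ?_ ?_ ?_
  · intro m
    exact ⟨Fermat.Agent.S19x.C.Cyclo.cycloOp hp D m,
      Fermat.Agent.S19x.C.Cyclo.cycloOp_commute hp D m,
      fun g => Fermat.Agent.S19x.C.Cyclo.exists_hecke_eq hp D m hF hpS hNS H g⟩
  · intro m hfin nn
    exact Fermat.Agent.S19x.C.Nakayama.exists_projector nn
  · intro δ hδ k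
    exact Fermat.Agent.S19x.C.Nakayama.exists_bezout (resChar H) δ hδ k

/-- **S32 from S19.** -/
theorem s32_of_s19 [Finite (IsLocalRing.ResidueField 𝒪)]
    (hp : p.Prime) (hp𝒪 : (p : 𝒪) ∈ IsLocalRing.maximalIdeal 𝒪)
    (hpS : p ∈ S) (hNS : ∀ q : ℕ, q.Prime → q ∣ N → q ∈ S)
    (H : CuspForm.HeckeGaloisRepDatum N (↑S : Set ℕ) 𝒪 θ T)
    (hS19 : ∀ k : ℕ, Fermat.Agent.S19x.C.TorsTransport.S19Conclusion N p k) :
    H.ρ.IsFlatAt p := by
  have hC := Fermat.Agent.Gateway.Export.partCInputs Fermat.Agent.Gateway.Export.c0Good N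
  have hD5 := Fermat.Agent.Gateway.Export.d5Input N
  exact isFlatAt_of_torsionData
    (frobPowerDense_of_lib Fermat.Agent.Lib.FrobDensity.frobPowerDense) hp hp𝒪 hpS hNS H
    (torsionHeckeDataOfExport hp hpS hNS
      (Fermat.Agent.Gateway.Export.heckeTorsionAction N
        (Fermat.Agent.Gateway.Export.coreInputs N hD5) S hNS)
      (galoisHeckeComm N) (Fermat.Agent.Gateway.Export.torsionEichlerShimura hC)
      (Fermat.Agent.Gateway.Export.torsionGalLevel N))
    (fun m => Fermat.Agent.S19x.C.TorsTransport.isFFPoints_jTors (hS19 m))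

end Fermat.Agent.S19x.C.S32Final
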