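/-
P-S19 stage 2 (S32 bridge), BLOCK C, end game - independent second (helper68; primary = helper55):
the frozen statement S32 from the frozen conclusion of S19 (at the level `N` and the prime `p`).

`s32_of_s19` : `(∀ k, TorsTransport.S19Conclusion N p k) → H.ρ.IsFlatAt p`, by
`FlatOfFF.isFlatAt_of_isFFPoints` applied to the torsion data of the export
(`S31Red.torsionHeckeDataOfExport`, the same data as in the landed proof of S31) and
`TorsTransport.isFFPoints_jTors`.
-/
import Mathlib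
import Fermat.Agent.Gateway.Export.C0Good
import Fermat.Agent.S19x.C.TorsTransport
import Fermat.Agent.S19x.C.FlatOfFF

set_option autoImplicit false

noncomputable section

namespace Fermat.Agent.S19x.C.S32OfS19

open Fermat.Agent.S56x.Dict.FFPoints Fermat.Agent.S19x.C Fermat.Agent.Gateway.S31Red
  Fermat.Agent.Gateway.Export

variable {p : ℕ} {N : ℕ} [NeZero N] {S : Finset ℕ}
  {𝒪 : Type} [CommRing 𝒪] [IsDomain 𝒪] [IsDiscreteValuationRing 𝒪]
  [IsAdicComplete (IsLocalRing.maximalIdeal 𝒪) 𝒪]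
  {θ : CuspForm.heckeAlgebra N 2 (↑S : Set ℕ) →+* IsLocalRing.ResidueField 𝒪}
  {T : Type} [CommRing T] [IsLocalRing T] [IsNoetherianRing T]
  [IsAdicComplete (IsLocalRing.maximalIdeal T) T] [Algebra 𝒪 T] [IsLocalHom (algebraMap 𝒪 T)]
  [Module.Finite 𝒪 T] [Module.Free 𝒪 T]

/-- **S32 from S19.**  If `J₀(N)[p ^ k]` has a finite flat model over `ℤ_(p)` for every `k` (the
frozen conclusion of S19 at the level `N` and the prime `p`), then `H.ρ` is flat at `p`. -/
theorem s32_of_s19 [Finite (IsLocalRing.ResidueField 𝒪)]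
    (hS19 : ∀ k : ℕ, TorsTransport.S19Conclusion N p k)
    (hp : p.Prime) (hp𝒪 : (p : 𝒪) ∈ IsLocalRing.maximalIdeal 𝒪)
    (hpS : p ∈ S) (hNS : ∀ q : ℕ, q.Prime → q ∣ N → q ∈ S)
    (H : CuspForm.HeckeGaloisRepDatum N (↑S : Set ℕ) 𝒪 θ T) :
    H.ρ.IsFlatAt p :=
  FlatOfFF.isFlatAt_of_isFFPoints
    (frobPowerDense_of_lib Fermat.Agent.Lib.FrobDensity.frobPowerDense) hp hp𝒪 hpS hNS H
    (torsionHeckeDataOfExport hp hpS hNS
      (heckeTorsionAction N (coreInputs N (d5Input N)) S hNS) (galoisHeckeComm N)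
      (torsionEichlerShimura (partCInputs c0Good N)) (torsionGalLevel N))
    (fun m => TorsTransport.isFFPoints_jTors (hS19 m))

end Fermat.Agent.S19x.C.S32OfS19
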